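import Mathlib.Algebra.BigOperators.Group.List.Basic
import Mathlib.Tactic.IntervalCases
import Mathlib.Tactic.Linarith

/-!
# Certificates against the excluded groups

For a group `ℤ/a × ℤ/b` a certificate `(L, w)` bounds at a fibre with components `(p, q)` the
weighted distances of the components of the elements from zero, so that there are at most `2 m`
singular fibres.
-/

set_option autoImplicit false

namespace FA.CoxParry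

/-- The distance to zero modulo `b`. -/
def dist (N b : ℕ) : ℕ := min (N % b) (b - N % b)

/-- Weights on the elements `i P + j Q` bounded at every fibre. -/
def CertLocal (a b L : ℕ) (w : List (ℕ × ℕ × ℕ)) : Prop :=
  0 < L ∧ (∀ t ∈ w, t.1 < a ∧ t.2.1 < b ∧ (t.1 ≠ 0 ∨ t.2.1 ≠ 0)) ∧
    (∀ p < a, ∀ q < b, (w.map fun t => t.2.2 * dist (t.1 * (p * (b / a)) + t.2.1 * q) b).sum +
      L * Nat.gcd b (Nat.gcd (p * (b / a)) q) ≤ L * b)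

/-- A certificate: bounded at every fibre, with total at least `10 L`. -/
def Cert (a b L : ℕ) (w : List (ℕ × ℕ × ℕ)) : Prop :=
  CertLocal a b L w ∧
    10 * L ≤ (w.map fun t => t.2.2 * if a ∣ 2 * t.1 ∧ b ∣ 2 * t.2.1 then 4 else 3).sum

theorem cert_1_14 : Cert 1 14 4
    [(0, 1, 1), (0, 2, 3), (0, 3, 1), (0, 4, 3), (0, 5, 1), (0, 6, 3), (0, 7, 1)] := by
  unfold Cert CertLocal dist; decide +kernel

theorem cert_1_15 : Cert 1 15 3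
    [(0, 1, 1), (0, 2, 1), (0, 3, 2), (0, 4, 1), (0, 5, 2), (0, 6, 2), (0, 7, 1)] := by
  unfold Cert CertLocal dist; decide +kernel

theorem cert_1_16 : Cert 1 16 4
    [(0, 1, 1), (0, 2, 2), (0, 3, 1), (0, 4, 3), (0, 5, 1), (0, 6, 2), (0, 7, 1), (0, 8, 2)] := by
  unfold Cert CertLocal dist; decide +kernel

theorem cert_1_18 : Cert 1 18 18
    [(0, 1, 3), (0, 2, 9), (0, 3, 5), (0, 4, 9), (0, 5, 3), (0, 6, 15), (0, 7, 3),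
    (0, 8, 9), (0, 9, 4)] := by
  unfold Cert CertLocal dist; decide +kernel

theorem cert_1_20 : Cert 1 20 6
    [(0, 1, 1), (0, 2, 2), (0, 3, 1), (0, 4, 4), (0, 5, 2), (0, 6, 2), (0, 7, 1),
    (0, 8, 4), (0, 9, 1), (0, 10, 2)] := by
  unfold Cert CertLocal dist; decide +kernel

theorem cert_1_21 : Cert 1 21 4
    [(0, 1, 1), (0, 2, 1), (0, 3, 2), (0, 4, 1), (0, 5, 1), (0, 6, 2), (0, 7, 2),
    (0, 8, 1), (0, 9, 2), (0, 10, 1)] := by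
  unfold Cert CertLocal dist; decide +kernel

theorem cert_1_24 : Cert 1 24 8
    [(0, 1, 1), (0, 2, 2), (0, 3, 2), (0, 4, 3), (0, 5, 1), (0, 6, 4), (0, 7, 1),
    (0, 8, 5), (0, 9, 2), (0, 10, 2), (0, 11, 1), (0, 12, 3)] := by
  unfold Cert CertLocal dist; decide +kernel

theorem cert_1_25 : Cert 1 25 75
    [(0, 1, 20), (0, 2, 20), (0, 3, 20), (0, 4, 20), (0, 5, 36), (0, 6, 20), (0, 7, 20),
    (0, 8, 20), (0, 9, 20), (0, 10, 36), (0, 11, 20), (0, 12, 20)] := by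
  unfold Cert CertLocal dist; decide +kernel

theorem cert_1_27 : Cert 1 27 27
    [(0, 1, 6), (0, 2, 6), (0, 3, 10), (0, 4, 6), (0, 5, 6), (0, 6, 10), (0, 7, 6),
    (0, 8, 6), (0, 9, 14), (0, 10, 6), (0, 11, 6), (0, 12, 10), (0, 13, 6)] := by
  unfold Cert CertLocal dist; decide +kernel

theorem cert_1_35 : Cert 1 35 6
    [(0, 1, 1), (0, 2, 1), (0, 3, 1), (0, 4, 1), (0, 5, 2), (0, 6, 1), (0, 7, 2),
    (0, 8, 1), (0, 9, 1), (0, 10, 2), (0, 11, 1), (0, 12, 1), (0, 13, 1), (0, 14, 2),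
    (0, 15, 2), (0, 16, 1), (0, 17, 1)] := by
  unfold Cert CertLocal dist; decide +kernel

theorem cert_1_49 : Cert 1 49 49
    [(0, 1, 7), (0, 2, 7), (0, 3, 7), (0, 4, 7), (0, 5, 7), (0, 6, 7), (0, 7, 13),
    (0, 8, 7), (0, 9, 7), (0, 10, 7), (0, 11, 7), (0, 12, 7), (0, 13, 7), (0, 14, 13),
    (0, 15, 7), (0, 16, 7), (0, 17, 7), (0, 18, 7), (0, 19, 7), (0, 20, 7), (0, 21, 13),
    (0, 22, 7), (0, 23, 7), (0, 24, 7)] := by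
  unfold Cert CertLocal dist; decide +kernel

theorem cert_2_10 : Cert 2 10 6
    [(0, 1, 1), (0, 2, 5), (0, 3, 1), (0, 4, 5), (0, 5, 1), (1, 0, 1), (1, 1, 1),
    (1, 2, 1), (1, 3, 1), (1, 4, 1), (1, 5, 1)] := by
  unfold Cert CertLocal dist; decide +kernel

theorem cert_2_12 : Cert 2 12 8
    [(0, 1, 1), (0, 2, 3), (0, 3, 2), (0, 4, 7), (0, 5, 1), (0, 6, 3), (1, 0, 1),
    (1, 1, 1), (1, 2, 1), (1, 3, 2), (1, 4, 1), (1, 5, 1), (1, 6, 1)] := by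
  unfold Cert CertLocal dist; decide +kernel

theorem cert_3_9 : Cert 3 9 9
    [(0, 1, 2), (0, 2, 2), (0, 3, 6), (0, 4, 2), (1, 0, 2), (1, 1, 2), (1, 2, 2),
    (1, 3, 2), (1, 4, 2), (1, 5, 2), (1, 6, 2), (1, 7, 2), (1, 8, 2)] := by
  unfold Cert CertLocal dist; decide +kernel

theorem cert_3_12 : Cert 3 12 12
    [(0, 1, 1), (0, 2, 2), (0, 3, 4), (0, 4, 4), (0, 5, 1), (0, 6, 4), (1, 0, 4),
    (1, 1, 1), (1, 2, 2), (1, 3, 1), (1, 4, 4), (1, 5, 1), (1, 6, 2), (1, 7, 1), (1, 8, 4),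
    (1, 9, 1), (1, 10, 2), (1, 11, 1)] := by
  unfold Cert CertLocal dist; decide +kernel

theorem cert_4_8 : Cert 4 8 16
    [(0, 1, 2), (0, 2, 6), (0, 3, 2), (0, 4, 7), (1, 0, 2), (1, 1, 2), (1, 2, 2),
    (1, 3, 2), (1, 4, 2), (1, 5, 2), (1, 6, 2), (1, 7, 2), (2, 0, 3), (2, 1, 2), (2, 2, 6),
    (2, 3, 2), (2, 4, 3)] := by
  unfold Cert CertLocal dist; decide +kernel

theorem cert_5_10 : Cert 5 10 15
    [(0, 1, 1), (0, 2, 3), (0, 3, 1), (0, 4, 3), (0, 5, 3), (1, 0, 3), (1, 1, 1),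
    (1, 2, 3), (1, 3, 1), (1, 4, 3), (1, 5, 1), (1, 6, 3), (1, 7, 1), (1, 8, 3), (1, 9, 1),
    (2, 0, 3), (2, 1, 1), (2, 2, 3), (2, 3, 1), (2, 4, 3), (2, 5, 1), (2, 6, 3), (2, 7, 1),
    (2, 8, 3), (2, 9, 1)] := by
  unfold Cert CertLocal dist; decide +kernel

theorem cert_6_6 : Cert 6 6 12
    [(0, 1, 1), (0, 2, 5), (0, 3, 2), (1, 0, 1), (1, 1, 1), (1, 2, 1), (1, 3, 1),
    (1, 4, 1), (1, 5, 1), (2, 0, 5), (2, 1, 1), (2, 2, 5), (2, 3, 1), (2, 4, 5), (2, 5, 1),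
    (3, 0, 2), (3, 1, 1), (3, 2, 1), (3, 3, 2)] := by
  unfold Cert CertLocal dist; decide +kernel

theorem cert_7_7 : Cert 7 7 7
    [(0, 1, 1), (0, 2, 1), (0, 3, 1), (1, 0, 1), (1, 1, 1), (1, 2, 1), (1, 3, 1),
    (1, 4, 1), (1, 5, 1), (1, 6, 1), (2, 0, 1), (2, 1, 1), (2, 2, 1), (2, 3, 1), (2, 4, 1),
    (2, 5, 1), (2, 6, 1), (3, 0, 1), (3, 1, 1), (3, 2, 1), (3, 3, 1), (3, 4, 1), (3, 5, 1),
    (3, 6, 1)] := by
  unfold Cert CertLocal dist; decide +kernel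

/-- Without weights. -/
theorem certLocal_nil (b : ℕ) (hb : 0 < b) : CertLocal 1 b 1 [] :=
  ⟨one_pos, by simp, fun p _ q _ => by
    simpa using Nat.le_of_dvd hb (Nat.gcd_dvd_left b _)⟩

/-- The minimal excluded groups. -/
def excludedList : List (ℕ × ℕ) :=
  [(1, 14), (1, 15), (1, 16), (1, 18), (1, 20), (1, 21), (1, 24), (1, 25), (1, 27), (1, 35), (1, 49),
    (2, 10), (2, 12), (3, 9), (3, 12), (4, 8), (5, 10), (6, 6), (7, 7)]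

theorem exists_cert {a b : ℕ} (h : (a, b) ∈ excludedList) : ∃ L w, Cert a b L w := by
  simp only [excludedList, List.mem_cons, Prod.mk.injEq, List.not_mem_nil, or_false] at h
  rcases h with ⟨rfl, rfl⟩ | ⟨rfl, rfl⟩ | ⟨rfl, rfl⟩ | ⟨rfl, rfl⟩ | ⟨rfl, rfl⟩ | ⟨rfl, rfl⟩ | ⟨rfl, rfl⟩ | ⟨rfl, rfl⟩ | ⟨rfl, rfl⟩ | ⟨rfl, rfl⟩ | ⟨rfl, rfl⟩ | ⟨rfl, rfl⟩ | ⟨rfl, rfl⟩ | ⟨rfl, rfl⟩ | ⟨rfl, rfl⟩ | ⟨rfl, rfl⟩ | ⟨rfl, rfl⟩ | ⟨rfl, rfl⟩ | ⟨rfl, rfl⟩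
  exacts [⟨_, _, cert_1_14⟩,
    ⟨_, _, cert_1_15⟩,
    ⟨_, _, cert_1_16⟩,
    ⟨_, _, cert_1_18⟩,
    ⟨_, _, cert_1_20⟩,
    ⟨_, _, cert_1_21⟩,
    ⟨_, _, cert_1_24⟩,
    ⟨_, _, cert_1_25⟩,
    ⟨_, _, cert_1_27⟩,
    ⟨_, _, cert_1_35⟩,
    ⟨_, _, cert_1_49⟩,
    ⟨_, _, cert_2_10⟩,
    ⟨_, _, cert_2_12⟩,
    ⟨_, _, cert_3_9⟩,
    ⟨_, _, cert_3_12⟩,
    ⟨_, _, cert_4_8⟩,
    ⟨_, _, cert_5_10⟩,
    ⟨_, _, cert_6_6⟩,
    ⟨_, _, cert_7_7⟩]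

end FA.CoxParry
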