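import Fermat.Agent.Torsion.Groups
import Fermat.Agent.CoxParry.Certificates

/-!
# Finite abelian groups with at most `n²` elements killed by `n`

They are `ℤ/a × ℤ/b` with `a ∣ b`; if moreover no prime above `7` divides the exponent and none of the
excluded groups embeds, they are among nineteen groups.
-/

set_option autoImplicit false
set_option linter.unusedSectionVars false
set_option linter.style.haveILetI false

noncomputable section

namespace FA.CoxParry

/-- The nineteen groups. -/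
def nineteen : List (ℕ × ℕ) :=
  [(1, 1), (1, 2), (1, 3), (1, 4), (1, 5), (1, 6), (1, 7), (1, 8), (1, 9), (1, 10), (1, 12),
    (2, 2), (2, 4), (2, 6), (2, 8), (3, 3), (3, 6), (4, 4), (5, 5)]

set_option synthInstance.maxSize 1000 in
theorem small_exponent : ∀ i < 4, ∀ j < 3, ∀ l < 2, ∀ n < 2,
    (∀ p ∈ excludedList, p.1 = 1 → ¬p.2 ∣ 2 ^ i * 3 ^ j * 5 ^ l * 7 ^ n) →
    2 ^ i * 3 ^ j * 5 ^ l * 7 ^ n < 13 := by
  unfold excludedList; decide +kernel

set_option synthInstance.maxSize 1000 in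
theorem small_pairs : ∀ b < 13, ∀ a < 13, (0 < a ∧ a ∣ b ∧ b ≠ 11 ∧ 0 < b) →
    (∀ p ∈ excludedList, ¬(p.1 ∣ a ∧ p.2 ∣ b)) → (a, b) ∈ nineteen := by
  unfold excludedList nineteen; decide +kernel

open scoped Classical

/-- **Two generators.** -/
theorem exists_two_cyclic {G : Type*} [AddCommGroup G] [Finite G]
    (h : ∀ n : ℕ, 0 < n → Nat.card {x : G // n • x = 0} ≤ n ^ 2) :
    ∃ a b : ℕ, a ∣ b ∧ 0 < b ∧ Nonempty (G ≃+ ZMod a × ZMod b) := by
  obtain ⟨g, hg⟩ := AddMonoid.exists_addOrderOf_eq_exponent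
    (AddMonoid.ExponentExists.of_finite (G := G))
  set n := addOrderOf g with hn
  have hnx : ∀ x : G, n • x = 0 := fun x => by
    rw [hg]; exact AddMonoid.exponent_nsmul_eq_zero x
  have hn0 : 0 < n := addOrderOf_pos g
  set K := AddSubgroup.zmultiples g with hK
  haveI : Fintype (G ⧸ K) := Fintype.ofFinite _
  have hnQ : ∀ q : G ⧸ K, n • q = 0 := fun q => by
    obtain ⟨x, rfl⟩ := QuotientAddGroup.mk_surjective q
    rw [← QuotientAddGroup.mk_nsmul, hnx, QuotientAddGroup.mk_zero]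
  have hlift : ∀ q : G ⧸ K, ∃ y : G, (y : G ⧸ K) = q ∧ addOrderOf q • y = 0 := by
    intro q
    obtain ⟨x, rfl⟩ := QuotientAddGroup.mk_surjective q
    set d := addOrderOf (x : G ⧸ K) with hd
    obtain ⟨c, hc⟩ : d ∣ n := addOrderOf_dvd_of_nsmul_eq_zero (hnQ _)
    have hc0 : (c : ℤ) ≠ 0 := by
      intro h'; rw [Int.natCast_eq_zero] at h'; rw [hc, h', mul_zero] at hn0; exact lt_irrefl 0 hn0
    obtain ⟨r, hr : r • g = d • x⟩ : d • x ∈ K := by
      rw [← QuotientAddGroup.eq_zero_iff, QuotientAddGroup.mk_nsmul, hd]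
      exact addOrderOf_nsmul_eq_zero _
    obtain ⟨t, rfl⟩ : (d : ℤ) ∣ r := by
      have h1 : ((c : ℤ) * r) • g = 0 := by
        rw [mul_smul, hr, natCast_zsmul, ← mul_nsmul, ← hc, hnx]
      rw [← addOrderOf_dvd_iff_zsmul_eq_zero, ← hn, hc, mul_comm (c : ℤ) r, Nat.cast_mul] at h1
      exact Int.dvd_of_mul_dvd_mul_right hc0 h1
    refine ⟨x - t • g, ?_, ?_⟩
    · rw [QuotientAddGroup.mk_sub, sub_eq_self, QuotientAddGroup.eq_zero_iff]; exact ⟨t, rfl⟩
    · rw [nsmul_sub, ← hr, ← natCast_zsmul, ← mul_smul, sub_self]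
  choose Y hY hYo using hlift
  haveI : IsAddCyclic (G ⧸ K) := by
    refine isAddCyclic_of_card_nsmul_eq_zero_le fun d hd => ?_
    set e := Nat.gcd d n with he
    have he0 : 0 < e := Nat.gcd_pos_of_pos_left _ hd
    refine le_trans ?_ (Nat.le_of_dvd hd (Nat.gcd_dvd_left d n))
    rw [← he]
    obtain ⟨c, hc⟩ : e ∣ n := Nat.gcd_dvd_right d n
    have hc0 : 0 < c := Nat.pos_of_mul_pos_left (hc ▸ hn0)
    set s : Finset (G ⧸ K) := {q | d • q = 0} with hs
    have hkill : ∀ q : s, e • Y q.1 = 0 := fun q => by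
      obtain ⟨f, hf⟩ : addOrderOf q.1 ∣ e := by
        refine Nat.dvd_gcd (addOrderOf_dvd_of_nsmul_eq_zero ?_)
          (addOrderOf_dvd_of_nsmul_eq_zero (hnQ _))
        exact (Finset.mem_filter.1 q.2).2
      rw [hf, mul_nsmul, hYo, nsmul_zero]
    let F : s × Fin e → {x : G // e • x = 0} := fun qi =>
      ⟨Y qi.1.1 + (qi.2.1 * c) • g, by
        rw [nsmul_add, hkill, zero_add, ← mul_nsmul', show e * (qi.2.1 * c) = n * qi.2.1 by
          rw [hc]; ring, mul_nsmul', hnx]⟩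
    have hF : Function.Injective F := by
      rintro ⟨q, i⟩ ⟨q', i'⟩ heq
      have h1 : Y q.1 + (i.1 * c) • g = Y q'.1 + (i'.1 * c) • g := congrArg Subtype.val heq
      have hmem : ∀ j : ℕ, ((j • g : G) : G ⧸ K) = 0 := fun j =>
        (QuotientAddGroup.eq_zero_iff _).2 (nsmul_mem (AddSubgroup.mem_zmultiples g) j)
      have hq : q = q' := by
        refine Subtype.ext ?_
        have h2 := congrArg (QuotientAddGroup.mk (s := K)) h1
        simp only [QuotientAddGroup.mk_add, hmem, add_zero, hY] at h2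
        exact h2
      subst hq
      have h3 := nsmul_injOn_Iio_addOrderOf (x := g) (show i.1 * c < n by
        rw [hc]; exact Nat.mul_lt_mul_of_pos_right i.2 hc0) (show i'.1 * c < n by
        rw [hc]; exact Nat.mul_lt_mul_of_pos_right i'.2 hc0) (add_left_cancel h1)
      exact Prod.ext rfl (Fin.ext (Nat.eq_of_mul_eq_mul_right hc0 h3))
    have hcard := (Nat.card_le_card_of_injective F hF).trans (h e he0)
    rw [Nat.card_prod, Nat.card_eq_finsetCard, Nat.card_fin, sq] at hcard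
    exact Nat.le_of_mul_le_mul_right hcard he0
  obtain ⟨q₀, hq₀⟩ := IsAddCyclic.exists_generator (α := G ⧸ K)
  refine ⟨addOrderOf q₀, n, addOrderOf_dvd_of_nsmul_eq_zero (hnQ _), hn0, ⟨(AddEquiv.ofBijective
    (FA.Torsion.pairHom (Y q₀) g (hYo q₀) (addOrderOf_nsmul_eq_zero g)) ⟨?_, ?_⟩).symm⟩⟩
  · refine FA.Torsion.pairHom_injective _ _ rfl fun i hi => ?_
    rw [addOrderOf_dvd_iff_zsmul_eq_zero, ← hY q₀, ← QuotientAddGroup.mk_zsmul,
      QuotientAddGroup.eq_zero_iff]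
    exact hi
  · intro x
    obtain ⟨i, hi : i • q₀ = (x : G ⧸ K)⟩ := hq₀ (x : G ⧸ K)
    obtain ⟨t, ht : t • g = x - i • Y q₀⟩ : x - i • Y q₀ ∈ K := by
      rw [← QuotientAddGroup.eq_zero_iff, QuotientAddGroup.mk_sub, QuotientAddGroup.mk_zsmul, hY,
        hi, sub_self]
    exact ⟨((i : ZMod _), (t : ZMod _)), by rw [FA.Torsion.pairHom_apply, ht, add_sub_cancel]⟩

/-- A divisor gives a subgroup. -/
theorem exists_injective_zmod {a' a : ℕ} (h : a' ∣ a) (ha : 0 < a) :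
    ∃ f : ZMod a' →+ ZMod a, Function.Injective f := by
  obtain ⟨c, rfl⟩ := h
  have hc : (c : ℤ) ≠ 0 := by
    intro h'; rw [Int.natCast_eq_zero] at h'; rw [h', mul_zero] at ha; exact lt_irrefl 0 ha
  refine ⟨ZMod.lift a' ⟨zmultiplesHom _ (c : ZMod (a' * c)), ?_⟩, ?_⟩
  · simp [← Nat.cast_mul]
  rw [injective_iff_map_eq_zero]
  intro x hx
  obtain ⟨i, rfl⟩ := ZMod.intCast_surjective x
  rw [ZMod.lift_coe] at hx
  rw [ZMod.intCast_zmod_eq_zero_iff_dvd]
  have h2 : ((i * c : ℤ) : ZMod (a' * c)) = 0 := by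
    rw [Int.cast_mul, Int.cast_natCast]; simpa [zmultiplesHom_apply] using hx
  rw [ZMod.intCast_zmod_eq_zero_iff_dvd, Nat.cast_mul] at h2
  exact Int.dvd_of_mul_dvd_mul_right hc h2

/-- **Nineteen groups.** -/
theorem mem_nineteen {a b : ℕ} (hab : a ∣ b) (hb : 0 < b)
    (hp : ∀ p : ℕ, p.Prime → p ∣ b → p ≤ 7)
    (hex : ∀ p ∈ excludedList, ¬(p.1 ∣ a ∧ p.2 ∣ b)) : (a, b) ∈ nineteen := by
  have hcyc : ∀ p ∈ excludedList, p.1 = 1 → ¬p.2 ∣ b := fun p hp' h1 h2 =>
    hex p hp' ⟨h1 ▸ one_dvd a, h2⟩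
  have hdvd : b ∣ 2 ^ 3 * 3 ^ 2 * 5 * 7 := by
    refine (Nat.dvd_iff_prime_pow_dvd_dvd _ _).2 fun p e hpp hpe => ?_
    rcases Nat.eq_zero_or_pos e with rfl | he
    · rw [pow_zero]; exact one_dvd _
    have h7 := hp p hpp ((dvd_pow_self p he.ne').trans hpe)
    have h2 := hpp.two_le
    interval_cases p
    · have : e ≤ 3 := by
        by_contra hle
        exact hcyc (1, 16) (by simp [excludedList]) rfl
          ((pow_dvd_pow 2 (show 4 ≤ e by omega)).trans hpe)
      exact (pow_dvd_pow 2 this).trans (by norm_num)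
    · have : e ≤ 2 := by
        by_contra hle
        exact hcyc (1, 27) (by simp [excludedList]) rfl
          ((pow_dvd_pow 3 (show 3 ≤ e by omega)).trans hpe)
      exact (pow_dvd_pow 3 this).trans (by norm_num)
    · exact absurd hpp (by decide)
    · have : e ≤ 1 := by
        by_contra hle
        exact hcyc (1, 25) (by simp [excludedList]) rfl
          ((pow_dvd_pow 5 (show 2 ≤ e by omega)).trans hpe)
      exact (pow_dvd_pow 5 this).trans (by norm_num)
    · exact absurd hpp (by decide)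
    · have : e ≤ 1 := by
        by_contra hle
        exact hcyc (1, 49) (by simp [excludedList]) rfl
          ((pow_dvd_pow 7 (show 2 ≤ e by omega)).trans hpe)
      exact (pow_dvd_pow 7 this).trans (by norm_num)
  obtain ⟨x, y, hx, hy, rfl⟩ := Nat.dvd_mul.1 hdvd
  obtain ⟨x, z, hx', hz, rfl⟩ := Nat.dvd_mul.1 hx
  obtain ⟨u, w, hu, hw, rfl⟩ := Nat.dvd_mul.1 hx'
  obtain ⟨i, hi, rfl⟩ := (Nat.dvd_prime_pow Nat.prime_two).1 hu
  obtain ⟨j, hj, rfl⟩ := (Nat.dvd_prime_pow Nat.prime_three).1 hw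
  obtain ⟨l, hl, rfl⟩ := (Nat.dvd_prime_pow (p := 5) (by norm_num) (m := 1)).1
    (show z ∣ 5 ^ 1 by rwa [pow_one])
  obtain ⟨n, hn, rfl⟩ := (Nat.dvd_prime_pow (p := 7) (by norm_num) (m := 1)).1
    (show y ∣ 7 ^ 1 by rwa [pow_one])
  have h12 := small_exponent i (by omega) j (by omega) l (by omega) n (by omega) hcyc
  refine small_pairs _ h12 a ?_ ⟨Nat.pos_of_dvd_of_pos hab hb, hab, ?_, hb⟩ hex
  · exact lt_of_le_of_lt (Nat.le_of_dvd hb hab) h12
  · intro h11
    have := hp 11 (by norm_num) (dvd_of_eq h11.symm)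
    omega

end FA.CoxParry
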