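import Fermat.Agent.CoxParry.Global
import Fermat.Agent.CoxParry.Groups
import Fermat.Agent.LevinTorsion.Bound
import Fermat.Agent.Root.SummarySiegelFunctionField
import Fermat.Agent.EC.TorsionCard

/-!
# The torsion subgroups over `k(T)`

A curve over `k(T)` not coming from `k` contains none of the excluded groups, so its torsion
subgroup, which is finite with at most `n²` elements killed by `n`, is one of nineteen groups.
-/

set_option autoImplicit false
set_option linter.unusedSectionVars false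
set_option linter.style.haveILetI false

noncomputable section

open Polynomial WeierstrassCurve FA.SzpiroLine FA.NeronSpecialisation FA.LangNeron FA.LevinTorsion
open FA.FunctionFieldRank (pointMap pointMap_some pointMap_injective)
open scoped Classical

namespace FA.CoxParry

variable {k : Type*} [Field k] [CharZero k]

/-- Not coming from the constants. -/
def NotConst (E : WeierstrassCurve (RatFunc k)) : Prop :=
  ¬∃ (E₀ : WeierstrassCurve k) (C₀ : VariableChange (RatFunc k)),
    C₀ • E = E₀.map (algebraMap k (RatFunc k))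

/-- A minimal model of positive level. -/
theorem exists_model_pos {E : WeierstrassCurve (RatFunc k)} [E.IsElliptic] (hE : NotConst E) :
    ∃ (A B : k[X]) (m : ℕ) (C₀ : VariableChange (RatFunc k)),
      C₀ • E = shortEq A B ∧ A ^ 3 - B ^ 2 ≠ 0 ∧ Minimal A B m ∧ 0 < m := by
  obtain ⟨A, B, m, C₀, h, hD, hmin⟩ := exists_minimal_model E
  refine ⟨A, B, m, C₀, h, hD, hmin, ?_⟩
  by_contra h0
  refine hE ⟨⟨0, 0, 0, -27 * A.coeff 0, -54 * B.coeff 0⟩, C₀, ?_⟩
  have hA : A = C (A.coeff 0) := eq_C_of_natDegree_eq_zero (by have := hmin.1; omega)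
  have hB : B = C (B.coeff 0) := eq_C_of_natDegree_eq_zero (by have := hmin.2.1; omega)
  rw [h, shortEq, hA, hB]
  ext <;> simp only [WeierstrassCurve.map, map_zero, map_mul, map_neg, map_ofNat,
    algebraMap_const, coeff_C_zero]

/-- Two generators of an embedded `ℤ/a × ℤ/b`. -/
theorem exists_generators {G : Type*} [AddCommGroup G] {a b : ℕ} (φ : ZMod a × ZMod b →+ G)
    (hφ : Function.Injective φ) :
    ∃ P Q : G, a • P = 0 ∧ b • Q = 0 ∧
      ∀ i j : ℕ, i < a → j < b → i • P + j • Q = 0 → i = 0 ∧ j = 0 := by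
  refine ⟨φ (1, 0), φ (0, 1), by rw [← map_nsmul, ← map_zero φ]; congr 1; simp,
    by rw [← map_nsmul, ← map_zero φ]; congr 1; simp,
    fun i j hi hj h => ?_⟩
  rw [← map_nsmul, ← map_nsmul, ← map_add, ← map_zero φ] at h
  have h' := hφ h
  simp only [Prod.smul_mk, nsmul_eq_mul, mul_one, mul_zero, Prod.mk_add_mk, add_zero, zero_add,
    Prod.mk_eq_zero, ZMod.natCast_eq_zero_iff] at h'
  exact ⟨Nat.eq_zero_of_dvd_of_lt h'.1 hi, Nat.eq_zero_of_dvd_of_lt h'.2 hj⟩

theorem no_excluded_algClosed [IsAlgClosed k] {E : WeierstrassCurve (RatFunc k)} [E.IsElliptic]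
    (hE : NotConst E) {a b : ℕ} (h : (a, b) ∈ excludedList)
    (φ : ZMod a × ZMod b →+ E.toAffine.Point) : ¬Function.Injective φ := by
  intro hφ
  obtain ⟨A, B, m, C₀, hC, hD, hmin, hm⟩ := exists_model_pos hE
  haveI : (shortEq A B).IsElliptic := by rw [← hC]; infer_instance
  obtain ⟨P, Q, hP, hQ, hinj⟩ := exists_generators
    ((FA.Frob.vcEquiv C₀ hC).symm.toAddMonoidHom.comp φ)
    ((FA.Frob.vcEquiv C₀ hC).symm.injective.comp hφ)
  obtain ⟨K, w, hcert⟩ := exists_cert h
  have hab : a ∣ b ∧ 5 ≤ b :=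
    (by decide : ∀ p ∈ excludedList, p.1 ∣ p.2 ∧ 5 ≤ p.2) (a, b) h
  exact false_of_cert hmin hm hD hab.1 hab.2 hcert hP hQ hinj

/-- Passing to algebraically closed constants. -/
theorem exists_algClosed {E : WeierstrassCurve (RatFunc k)} [E.IsElliptic] (hE : NotConst E) :
    ∃ (E' : WeierstrassCurve (RatFunc (AlgebraicClosure k))) (_ : E'.IsElliptic), NotConst E' ∧
      ∃ φ : E.toAffine.Point →+ E'.toAffine.Point, Function.Injective φ := by
  obtain ⟨W, C₀, hW, hC, hiff⟩ := exists_model E
  set ψ := algebraMap k (AlgebraicClosure k)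
  set W' := W.map (mapRingHom ψ) with hW'def
  have hW' : W'.Δ ≠ 0 := by
    rw [hW'def, WeierstrassCurve.map_Δ, coe_mapRingHom]
    exact (Polynomial.map_ne_zero_iff ψ.injective).2 hW
  haveI := genW_isElliptic hW
  haveI := genW_isElliptic hW'
  have hns : ¬IsSplit W' := fun e => hE (hiff.1 (isSplit_of_map hW e))
  have hG : (genW W).map (constMap ψ) = genW W' := genW_map ψ W
  exact ⟨genW W', inferInstance, fun e => hns ((isSplit_iff hW').2 e),
    (pointMap (constMap ψ) hG).comp (FA.Frob.vcEquiv C₀ hC).symm.toAddMonoidHom,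
    (pointMap_injective (constMap ψ) hG).comp (FA.Frob.vcEquiv C₀ hC).symm.injective⟩

/-- **The excluded groups do not embed.** -/
theorem no_excluded {E : WeierstrassCurve (RatFunc k)} [E.IsElliptic] (hE : NotConst E) {a b : ℕ}
    (h : (a, b) ∈ excludedList) (φ : ZMod a × ZMod b →+ E.toAffine.Point) :
    ¬Function.Injective φ := fun hφ => by
  obtain ⟨E', hE'e, hE', ι, hι⟩ := exists_algClosed hE
  exact no_excluded_algClosed hE' h (ι.comp φ) (hι.comp hφ)

/-- At most `n²` points killed by `n`. -/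
theorem natCard_killed_le (E : WeierstrassCurve (RatFunc k)) [E.IsElliptic] {n : ℕ} (hn : 0 < n) :
    Finite {P : E.toAffine.Point // n • P = 0} ∧
      Nat.card {P : E.toAffine.Point // n • P = 0} ≤ n ^ 2 := by
  set j := algebraMap (RatFunc k) (AlgebraicClosure (RatFunc k))
  have hn' : (n : AlgebraicClosure (RatFunc k)) ≠ 0 := by exact_mod_cast hn.ne'
  have hcard := FA.EC.natCard_nsmul_eq_zero (E.map j) hn'
  haveI : Finite {P : (E.map j).toAffine.Point // n • P = 0} :=
    Nat.finite_of_card_ne_zero (by rw [hcard]; positivity)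
  let f : {P : E.toAffine.Point // n • P = 0} → {P : (E.map j).toAffine.Point // n • P = 0} :=
    fun P => ⟨pointMap j rfl P.1, by rw [← map_nsmul, P.2, map_zero]⟩
  have hf : Function.Injective f := fun P Q h =>
    Subtype.ext (pointMap_injective j rfl (congrArg Subtype.val h))
  exact ⟨Finite.of_injective f hf, (Nat.card_le_card_of_injective f hf).trans hcard.le⟩

theorem finite_torsion {E : WeierstrassCurve (RatFunc k)} [E.IsElliptic] (hE : NotConst E) :
    Finite (AddCommGroup.torsion E.toAffine.Point) := by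
  obtain ⟨W, C₀, hW, hC, hiff⟩ := exists_model E
  haveI := genW_isElliptic hW
  have hfin := (FA.SiegelFunctionField.Summary.torsion_finite hW
    (fun e => by
      obtain ⟨E₀, C₁, h⟩ := e
      exact hE ⟨E₀, C₁ * C₀, by rw [mul_smul, hC]; exact h⟩))
  have : Finite {P : (genW W).toAffine.Point // IsOfFinAddOrder P} := hfin.to_subtype
  refine Finite.of_injective (β := {P : (genW W).toAffine.Point // IsOfFinAddOrder P})
    (fun P => ⟨(FA.Frob.vcEquiv C₀ hC).symm P.1,
      (FA.Frob.vcEquiv C₀ hC).symm.toAddMonoidHom.isOfFinAddOrder P.2⟩) fun P Q h => ?_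
  exact Subtype.ext ((FA.Frob.vcEquiv C₀ hC).symm.injective (congrArg Subtype.val h))

/-- **The torsion subgroup is one of nineteen groups.** -/
theorem torsion_classification {E : WeierstrassCurve (RatFunc k)} [E.IsElliptic]
    (hE : NotConst E) :
    ∃ p ∈ nineteen,
      Nonempty (AddCommGroup.torsion E.toAffine.Point ≃+ ZMod p.1 × ZMod p.2) := by
  haveI := finite_torsion hE
  obtain ⟨a, b, hab, hb, ⟨e⟩⟩ := exists_two_cyclic (G := AddCommGroup.torsion E.toAffine.Point)
    (fun n hn => by
      obtain ⟨hf, hle⟩ := natCard_killed_le E hn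
      let f : {P : AddCommGroup.torsion E.toAffine.Point // n • P = 0} →
          {P : E.toAffine.Point // n • P = 0} := fun P => ⟨P.1.1, by
        rw [← AddSubgroup.coe_nsmul, P.2]; rfl⟩
      have hf' : Function.Injective f := fun P Q h =>
        Subtype.ext (Subtype.ext (congrArg (fun R => (R.1 : E.toAffine.Point)) h))
      exact (Nat.card_le_card_of_injective f hf').trans hle)
  refine ⟨(a, b), mem_nineteen hab hb (fun p hp hpb => ?_) (fun x hx ⟨ha', hb'⟩ => ?_), ⟨e⟩⟩
  · obtain ⟨c, hc⟩ := hpb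
    haveI := Fact.mk hp
    obtain ⟨f, hf⟩ := exists_injective_zmod ⟨c, hc⟩ hb
    set P := (AddCommGroup.torsion E.toAffine.Point).subtype (e.symm (0, f 1))
    have hP : addOrderOf P = p := by
      rw [addOrderOf_injective _ (Subtype.val_injective),
        AddEquiv.addOrderOf_eq e.symm, Prod.addOrderOf_mk, addOrderOf_zero, Nat.lcm_one_left,
        addOrderOf_injective f hf, ZMod.addOrderOf_one]
    have h7 := (prime_torsion_le_seven E hE (P := P) (hP ▸ hp)).1
    rwa [hP] at h7
  · obtain ⟨a', b'⟩ := x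
    obtain ⟨f, hf⟩ := exists_injective_zmod ha' (Nat.pos_of_dvd_of_pos hab hb)
    obtain ⟨f', hf'⟩ := exists_injective_zmod hb' hb
    exact no_excluded hE hx ((AddCommGroup.torsion E.toAffine.Point).subtype.comp
      (e.symm.toAddMonoidHom.comp (f.prodMap f')))
      (Subtype.val_injective.comp (e.symm.injective.comp (hf.prodMap hf')))

/-- **A point of order at least five makes every fibre semistable.** -/
theorem semistable_of_order [IsAlgClosed k] {E : WeierstrassCurve (RatFunc k)} [E.IsElliptic]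
    (hE : NotConst E) {P : E.toAffine.Point} (h5 : 5 ≤ addOrderOf P) :
    ∃ (A B : k[X]) (m : ℕ) (C₀ : VariableChange (RatFunc k)),
      C₀ • E = shortEq A B ∧ Minimal A B m ∧
      (∀ t, (A ^ 3 - B ^ 2).IsRoot t → ¬A.IsRoot t) ∧
      ((A ^ 3 - B ^ 2).natDegree < 12 * m → A.natDegree = 4 * m) ∧
      ¬∃ c : k, A ^ 3 = C c * (A ^ 3 - B ^ 2) := by
  obtain ⟨A, B, m, C₀, hC, hD, hmin, hm⟩ := exists_model_pos hE
  haveI : (shortEq A B).IsElliptic := by rw [← hC]; infer_instance
  set Q := (FA.Frob.vcEquiv C₀ hC).symm P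
  have hord : addOrderOf Q = addOrderOf P := AddEquiv.addOrderOf_eq _ P
  obtain ⟨h1, h2, h3, -⟩ := semistable_bound hmin hm hD (one_dvd (addOrderOf P)) (by omega)
    (r := (0, 1)) (r' := (0, 1))
    (fun hh => Nat.not_dvd_of_pos_of_lt (by norm_num) (show _ < _ by simp; omega) hh.2)
    (fun hh => Nat.not_dvd_of_pos_of_lt (by norm_num) (show _ < _ by simp; omega) hh.2)
    (fun hh => Nat.not_dvd_of_pos_of_lt (by norm_num) (show _ < _ by simp; omega) hh.2)
    (fun hh => Nat.not_dvd_of_pos_of_lt (by norm_num) (show _ < _ by simp; omega) hh.2)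
    (certLocal_nil _ (by omega)) (P := 0) (Q := Q) (by simp)
    (hord ▸ addOrderOf_nsmul_eq_zero Q) fun i j hi hj h => by
      rw [nsmul_zero, zero_add, ← addOrderOf_dvd_iff_nsmul_eq_zero, hord] at h
      exact ⟨by omega, Nat.eq_zero_of_dvd_of_lt h hj⟩
  exact ⟨A, B, m, C₀, hC, hmin, h1, h2, h3⟩

end FA.CoxParry
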