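import Fermat.Agent.CoxParry.Points
import Mathlib.Algebra.Order.Ring.Nat
import Mathlib.Data.Nat.ModEq

/-!
# The places of a curve with torsion

For a minimal short equation at a valuation with value `q` of the uniformiser: a point with
`3 Q ≠ 0 ≠ 4 Q` excludes additive reduction, and at a multiplicative place with discriminant of order
`δ` torsion points have components modulo `δ`, the order of `fO` being the distance to zero.
-/

set_option autoImplicit false
set_option linter.unusedSectionVars false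
set_option linter.style.haveILetI false

noncomputable section

open WeierstrassCurve FA.Local FA.LevinTorsion
open scoped Classical

namespace FA.CoxParry

variable {L Γ : Type*} [Field L] [LinearOrderedCommGroupWithZero Γ] {v : Valuation L Γ}

theorem fO_scale {a b u x y : L} (hu : u ≠ 0) :
    fx (shortL (a / u ^ 4) (b / u ^ 6)).toAffine (x / u ^ 2) (y / u ^ 3) =
      fx (shortL a b).toAffine x y / u ^ 4 := by
  simp only [fx, shortL, mul_zero, zero_mul, add_zero, sub_zero]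
  field_simp

/-- The scaling. -/
theorem exists_scaleEquiv {a b u : L} (hu : u ≠ 0) [(shortL a b).IsElliptic]
    [(shortL (a / u ^ 4) (b / u ^ 6)).IsElliptic] :
    ∃ φ : (shortL a b).toAffine.Point ≃+ (shortL (a / u ^ 4) (b / u ^ 6)).toAffine.Point,
      ∀ (x y : L) (h : (shortL a b).toAffine.Nonsingular x y),
        ∃ h', φ (.some x y h) = .some (x / u ^ 2) (y / u ^ 3) h' := by
  have hC : (⟨Units.mk0 u hu, 0, 0, 0⟩ : VariableChange L) • shortL a b =
      shortL (a / u ^ 4) (b / u ^ 6) := by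
    ext <;> simp only [variableChange_a₁, variableChange_a₂, variableChange_a₃,
      variableChange_a₄, variableChange_a₆, Units.val_inv_eq_inv_val, Units.val_mk0, shortL]
    all_goals field_simp
    all_goals ring
  refine ⟨(FA.Frob.vcEquiv (⟨Units.mk0 u hu, 0, 0, 0⟩ : VariableChange L) hC).symm,
    fun x y h => ?_⟩
  obtain ⟨P', hP'⟩ := (FA.Frob.vcEquiv (⟨Units.mk0 u hu, 0, 0, 0⟩ : VariableChange L) hC).surjective
    (.some x y h)
  rcases P' with _ | ⟨x', y', h'⟩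
  · rw [← Affine.Point.zero_def, map_zero] at hP'
    exact absurd hP'.symm (Affine.Point.some_ne_zero h)
  have hco := hP'
  rw [FA.Frob.vcEquiv_some, Affine.Point.some.injEq] at hco
  simp only [FA.Frob.vcX, FA.Frob.vcY, Units.val_mk0, zero_mul, add_zero] at hco
  obtain ⟨rfl, rfl⟩ : x' = x / u ^ 2 ∧ y' = y / u ^ 3 := by
    rw [eq_div_iff (pow_ne_zero _ hu), eq_div_iff (pow_ne_zero _ hu), mul_comm x', mul_comm y']
    exact hco
  exact ⟨h', (AddEquiv.symm_apply_eq _).2 hP'.symm⟩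

variable (hv : ∀ n : ℤ, n ≠ 0 → v (n : L) = 1)
include hv

theorem fx_origin_eq {a b r : L} [(shortL a b).IsElliptic] (x y : L) :
    fx (shortL a b).toAffine x y = fx (toOrigin (shortL a b) r).toAffine (x - r) y := by
  have := fx_origin (V := shortL a b) (r := r) (x - r) y
  have h0 : halfY (shortL a b) r = 0 := by simp [halfY, shortL]
  rwa [sub_add_cancel, h0, add_zero] at this

theorem fO_origin_eq {a b r : L} [(shortL a b).IsElliptic] (x y : L) :
    fO (shortL a b).toAffine x y = fO (toOrigin (shortL a b) r).toAffine (x - r) y := by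
  simp only [fO, fx_origin_eq hv (r := r) x y]

variable [IsAlgClosed L]

/-- **No additive reduction**: `3 R ≠ 0`, and none of `R`, `R₁`, `R + R₁` is killed by two. -/
theorem no_additive {π : L} (hπ : π ≠ 0) (hπ1 : v π < 1) {a b : L} [(shortL a b).IsElliptic]
    (ha : v a ≤ 1) (hb : v b ≤ 1) (hmin : ¬(v a ≤ v π ^ 4 ∧ v b ≤ v π ^ 6))
    (ha' : a = 0 ∨ ∃ n : ℕ, v a = v π ^ n) (hb' : b = 0 ∨ ∃ n : ℕ, v b = v π ^ n)
    {δ : ℕ} (hD : v (a ^ 3 - b ^ 2) = v π ^ δ) (hδ : 0 < δ)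
    {x y : L} {h : (shortL a b).toAffine.Nonsingular x y}
    (hT : IsOfFinAddOrder (Affine.Point.some x y h)) (h2 : y ≠ 0)
    (h3 : 3 • Affine.Point.some x y h ≠ 0)
    {x₁ y₁ : L} {h₁' : (shortL a b).toAffine.Nonsingular x₁ y₁}
    (hT₁ : IsOfFinAddOrder (Affine.Point.some x₁ y₁ h₁')) (h21 : y₁ ≠ 0)
    {x₂ y₂ : L} {h' : (shortL a b).toAffine.Nonsingular x₂ y₂}
    (hsum : Affine.Point.some x y h + Affine.Point.some x₁ y₁ h₁' =
      Affine.Point.some x₂ y₂ h') (h4 : y₂ ≠ 0)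
    {e e₁ e₂ : ℕ} (hy : v y = v π ^ e) (hy₁ : v y₁ = v π ^ e₁) (hy₂ : v y₂ = v π ^ e₂)
    (hx : x = 0 ∨ ∃ n : ℕ, v x = v π ^ n)
    (hfx : fx (shortL a b).toAffine x y = 0 ∨
      ∃ n : ℕ, v (fx (shortL a b).toAffine x y) = v π ^ n)
    (hfx₁ : fx (shortL a b).toAffine x₁ y₁ = 0 ∨
      ∃ n : ℕ, v (fx (shortL a b).toAffine x₁ y₁) = v π ^ n)
    (hfx₂ : fx (shortL a b).toAffine x₂ y₂ = 0 ∨
      ∃ n : ℕ, v (fx (shortL a b).toAffine x₂ y₂) = v π ^ n) :
    v a = 1 := by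
  set q := v π with hq
  have hq0 : 0 < q := v.pos_iff.2 hπ
  have hinj := pow_right_injective₀ hq0 hπ1.ne
  have hle : ∀ {m n : ℕ}, q ^ m ≤ q ^ n ↔ n ≤ m := pow_le_pow_iff_right_of_lt_one₀ hq0 hπ1
  by_contra ha1
  have ha1 : v a < 1 := lt_of_le_of_ne ha ha1
  by_cases hI : v a ^ 3 ≤ q ^ δ ∧ v b ^ 2 ≤ q ^ δ
  · -- potentially good
    have hδ11 : δ < 12 := by
      by_contra h12
      refine hmin ⟨(pow_le_pow_iff_left₀ zero_le zero_le three_ne_zero).1 (hI.1.trans ?_),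
        (pow_le_pow_iff_left₀ zero_le zero_le two_ne_zero).1 (hI.2.trans ?_)⟩ <;>
      · rw [← pow_mul]; exact hle.2 (by omega)
    obtain ⟨u, hu⟩ := IsAlgClosed.exists_pow_nat_eq (π ^ δ) (by norm_num : 0 < 12)
    have hu0 : u ≠ 0 := fun h => pow_ne_zero δ hπ (by rw [← hu, h, zero_pow]; norm_num)
    have hw : v u ^ 12 = q ^ δ := by rw [← map_pow, hu, map_pow]
    set w := v u with hwdef
    have hw0 : 0 < w := v.pos_iff.2 hu0
    have hva : v (a / u ^ 4) ≤ 1 := by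
      rw [map_div₀, map_pow, div_le_one₀ (pow_pos hw0 _),
        ← pow_le_pow_iff_left₀ zero_le zero_le three_ne_zero, ← pow_mul, hw]
      exact hI.1
    have hvb : v (b / u ^ 6) ≤ 1 := by
      rw [map_div₀, map_pow, div_le_one₀ (pow_pos hw0 _),
        ← pow_le_pow_iff_left₀ zero_le zero_le two_ne_zero, ← pow_mul, hw]
      exact hI.2
    have hvD : v ((a / u ^ 4) ^ 3 - (b / u ^ 6) ^ 2) = 1 := by
      rw [show (a / u ^ 4) ^ 3 - (b / u ^ 6) ^ 2 = (a ^ 3 - b ^ 2) / u ^ 12 by field_simp,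
        map_div₀, hD, map_pow, ← hwdef, hw, div_self (pow_ne_zero _ hq0.ne')]
    haveI : (shortL (a / u ^ 4) (b / u ^ 6)).IsElliptic :=
      isElliptic_shortL hv (v.ne_zero_iff.1 (hvD.symm ▸ one_ne_zero))
    obtain ⟨φ, hφ⟩ := exists_scaleEquiv (a := a) (b := b) hu0
    obtain ⟨hns, hφP⟩ := hφ x y h
    have hT' : IsOfFinAddOrder (φ (Affine.Point.some x y h)) :=
      φ.toAddMonoidHom.isOfFinAddOrder hT
    rw [hφP] at hT'
    have hy0 : y / u ^ 3 ≠ 0 := div_ne_zero h2 (pow_ne_zero _ hu0)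
    have hy1 := val_fO_of_good hv hva hvb hvD hT'
    rw [fO, if_neg hy0, map_div₀, map_pow, ← hwdef, div_eq_one_iff_eq (pow_ne_zero _ hw0.ne'),
      hy] at hy1
    have he : δ = e * 4 := hinj <| by
      show q ^ δ = q ^ (e * 4)
      rw [pow_mul, hy1, ← pow_mul, hw]
    refine h3 (φ.injective ?_)
    rw [map_nsmul, hφP, map_zero]
    refine three_nsmul_of_flex hv (lt_of_le_of_ne hva fun heq => ?_) hvb hvD hT' hy0
      (lt_of_le_of_ne (val_x_le_one hv (intCoeff_shortL hv hva hvb) hT') fun heq => ?_)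
    · rcases ha' with rfl | ⟨α, hα⟩
      · simp at heq
      have h' : α * 3 = δ := hinj <| by
        show q ^ (α * 3) = q ^ δ
        rw [map_div₀, map_pow, div_eq_one_iff_eq (pow_ne_zero _ hw0.ne')] at heq
        rw [pow_mul, ← hα, heq, ← pow_mul, hw]
      omega
    · rw [map_div₀, map_pow, div_eq_one_iff_eq (pow_ne_zero _ hw0.ne')] at heq
      rcases hx with rfl | ⟨β, hβ⟩
      · rw [map_zero, eq_comm] at heq; exact absurd heq (pow_ne_zero _ hw0.ne')
      have h' : β * 6 = δ := hinj <| by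
        show q ^ (β * 6) = q ^ δ
        rw [pow_mul, ← hβ, heq, ← pow_mul, hw]
      omega
  · -- potentially multiplicative
    have heq : v a ^ 3 = v b ^ 2 ∧ q ^ δ < v a ^ 3 := by
      rw [← map_pow v a 3, ← map_pow v b 2, ← hD] at hI ⊢
      rcases not_and_or.1 hI with h' | h' <;> rw [not_le] at h'
      · have := v.map_sub_eq_of_lt_left h'
        rw [sub_sub_cancel] at this
        exact ⟨this.symm, h'⟩
      · have := v.map_add_eq_of_lt_left h'
        rw [add_sub_cancel] at this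
        exact ⟨this, this ▸ h'⟩
    rcases ha' with rfl | ⟨α, hα⟩
    · have := heq.2
      rw [map_zero, zero_pow three_ne_zero] at this
      exact not_lt_zero this
    rcases hb' with rfl | ⟨β, hβ⟩
    · have := heq.2.trans_eq heq.1
      rw [map_zero, zero_pow two_ne_zero] at this
      exact not_lt_zero this
    rw [hα, hβ, ← pow_mul, ← pow_mul] at heq
    have hαβ : α * 3 = β * 2 := hinj heq.1
    have hαδ : α * 3 < δ := by
      by_contra hc
      exact absurd heq.2 (not_lt.2 (hle.2 (not_lt.1 hc)))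
    have hα0 : α ≠ 0 := fun h => by rw [hα, h, pow_zero] at ha1; exact lt_irrefl _ ha1
    have hmin' : ¬(4 ≤ α ∧ 6 ≤ β) := fun hh => hmin ⟨hα ▸ hle.2 hh.1, hβ ▸ hle.2 hh.2⟩
    obtain ⟨rfl, rfl⟩ : α = 2 ∧ β = 3 := by omega
    obtain ⟨u, hu⟩ := IsAlgClosed.exists_pow_nat_eq π two_pos
    have hu0 : u ≠ 0 := fun h => hπ (by rw [← hu, h, zero_pow two_ne_zero])
    have hw : v u ^ 2 = q := by rw [← map_pow, hu]
    set w := v u with hwdef
    have hva : v (a / u ^ 4) = 1 := by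
      rw [map_div₀, map_pow, hα, ← hwdef, show w ^ 4 = (w ^ 2) ^ 2 by rw [← pow_mul], hw,
        div_self (pow_ne_zero _ hq0.ne')]
    have hvb : v (b / u ^ 6) ≤ 1 := by
      rw [map_div₀, map_pow, hβ, ← hwdef, show w ^ 6 = (w ^ 2) ^ 3 by rw [← pow_mul], hw,
        div_self (pow_ne_zero _ hq0.ne')]
    obtain ⟨ε, rfl⟩ := Nat.exists_eq_add_of_le (show 6 ≤ δ by omega)
    have hvD : v ((a / u ^ 4) ^ 3 - (b / u ^ 6) ^ 2) = q ^ ε := by
      rw [show (a / u ^ 4) ^ 3 - (b / u ^ 6) ^ 2 = (a ^ 3 - b ^ 2) / u ^ 12 by field_simp,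
        map_div₀, hD, map_pow, ← hwdef, show w ^ 12 = (w ^ 2) ^ 6 by rw [← pow_mul], hw, pow_add,
        mul_div_cancel_left₀ _ (pow_ne_zero _ hq0.ne')]
    have hε : ε ≠ 0 := by omega
    haveI : (shortL (a / u ^ 4) (b / u ^ 6)).IsElliptic :=
      isElliptic_shortL hv (v.ne_zero_iff.1 (hvD.symm ▸ pow_ne_zero _ hq0.ne'))
    obtain ⟨φ, hφ⟩ := exists_scaleEquiv (a := a) (b := b) hu0
    obtain ⟨r, hN, -⟩ := exists_mult hv hva hvb (hvD ▸ pow_lt_one₀ zero_le hπ1 hε)
    set ψ := φ.trans (originEquiv (shortL (a / u ^ 4) (b / u ^ 6)) r).symm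
    have h₁ : (toOrigin (shortL (a / u ^ 4) (b / u ^ 6)) r).a₁ = 0 := by rw [toOrigin_a₁]; rfl
    have hmid : ∀ (x y : L) (h : (shortL a b).toAffine.Nonsingular x y) (e : ℕ),
        IsOfFinAddOrder (Affine.Point.some x y h) → y ≠ 0 → v y = q ^ e →
        (fx (shortL a b).toAffine x y = 0 ∨
          ∃ n : ℕ, v (fx (shortL a b).toAffine x y) = q ^ n) →
        E0 v _ (ψ (Affine.Point.some x y h) + hN.T) := by
      intro x y h e hT hy0 hy hfx
      obtain ⟨hns, hφP⟩ := hφ x y h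
      obtain ⟨hns', hoP⟩ := origin_symm_some hv (r := r) hns
      have hψ : ψ (Affine.Point.some x y h) = Affine.Point.some _ _ hns' := by
        rw [AddEquiv.trans_apply, hφP, hoP]
      have hT' : IsOfFinAddOrder (ψ (Affine.Point.some x y h)) :=
        ψ.toAddMonoidHom.isOfFinAddOrder hT
      rw [hψ] at hT'
      rw [hψ]
      have hy0' : y / u ^ 3 ≠ 0 := div_ne_zero hy0 (pow_ne_zero _ hu0)
      rcases trichotomy hN (Affine.Point.some _ _ hns') with hE | hE | ⟨g, t, hb⟩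
      · exfalso
        have h1 := (fO_of_e0 hv hN h₁ hT' hE).2
        rw [fO, if_neg hy0', map_div₀, map_pow, ← hwdef,
          div_eq_one_iff_eq (pow_ne_zero _ (v.ne_zero_iff.2 hu0)), hy] at h1
        have : e * 2 = 3 := hinj <| by
          show q ^ (e * 2) = q ^ 3
          rw [pow_mul, h1, ← hw, ← pow_mul, ← pow_mul]
        omega
      · exact hE
      · exfalso
        obtain ⟨-, hyg, hfg⟩ := fO_of_br hv hN h₁ hb
        rw [← fx_origin_eq hv, fO_scale hu0, map_div₀, map_pow, ← hwdef] at hfg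
        rw [map_div₀, map_pow, ← hwdef, hy] at hyg
        have hw0 : w ≠ 0 := v.ne_zero_iff.2 hu0
        rcases hfx with hf | ⟨n, hn⟩
        · rw [hf, map_zero, zero_div] at hfg
          rw [← hfg, div_eq_zero_iff] at hyg
          rcases hyg with h' | h'
          · exact pow_ne_zero _ hq0.ne' h'
          · exact pow_ne_zero _ hw0 h'
        rw [hn] at hfg
        rw [← hfg, div_eq_div_iff (pow_ne_zero _ hw0) (pow_ne_zero _ hw0)] at hyg
        have hk : e * 2 + 4 = n * 2 + 3 := hinj <| by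
          show q ^ (e * 2 + 4) = q ^ (n * 2 + 3)
          have := congrArg (· ^ 2) hyg
          simp only [mul_pow, ← pow_mul] at this
          rw [pow_add, pow_add, show q ^ 4 = w ^ (4 * 2) by rw [← hw, ← pow_mul],
            show q ^ 3 = w ^ (3 * 2) by rw [← hw, ← pow_mul], this]
        omega
    have hE1 := hmid x y h e hT h2 hy hfx
    have hE1' := hmid x₁ y₁ h₁' e₁ hT₁ h21 hy₁ hfx₁
    have hE2 := hmid x₂ y₂ h' e₂
      (hsum ▸ (AddCommute.all _ _).isOfFinAddOrder_add hT hT₁) h4 hy₂ hfx₂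
    rw [← hsum, map_add] at hE2
    have hEs := hN.e0_add hE1 hE1'
    refine hN.T_not_e0 ?_
    have hT0 := hN.T_add_T
    have := hN.e0_sub hE2 hEs
    have e' : ∀ P Q : (toOrigin (shortL (a / u ^ 4) (b / u ^ 6)) r).toAffine.Point,
        P + Q + hN.T - (P + hN.T + (Q + hN.T)) = hN.T := fun P Q => by
      rw [show P + Q + hN.T - (P + hN.T + (Q + hN.T)) = -hN.T by abel,
        neg_eq_iff_add_eq_zero.2 hT0]
    rwa [e'] at this

/-- **Components at a multiplicative place.** -/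
theorem exists_component {q : Γ} (hq0 : 0 < q) (hq1 : q < 1) {a b : L} [(shortL a b).IsElliptic]
    (ha : v a = 1) (hb : v b ≤ 1) {δ : ℕ} (hδ : 0 < δ) (hD : v (a ^ 3 - b ^ 2) = q ^ δ) :
    ∃ C : (shortL a b).toAffine.Point → ℕ → Prop, C 0 0 ∧
      (∀ P Q m n, C P m → C Q n → C (P + Q) (m + n)) ∧
      (∀ m, C 0 m → δ ∣ m) ∧
      ∀ (x y : L) (h : (shortL a b).toAffine.Nonsingular x y) (e : ℕ),
        IsOfFinAddOrder (Affine.Point.some x y h) → v (fO (shortL a b).toAffine x y) = q ^ e →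
        2 * e ≤ δ ∧ (∃ c, C (Affine.Point.some x y h) c) ∧
          ∀ m, C (Affine.Point.some x y h) m → ∃ i, m = e + δ * i ∨ m + e = δ * i := by
  obtain ⟨r, hN, hA⟩ := exists_mult hv ha hb (hD ▸ pow_lt_one₀ zero_le hq1 hδ.ne')
  obtain ⟨s, hs⟩ := exists_slope (v := v) (W := (toOrigin (shortL a b) r).toAffine)
  set ψ := (originEquiv (shortL a b) r).symm
  have h₁ : (toOrigin (shortL a b) r).a₁ = 0 := by rw [toOrigin_a₁]; rfl
  have hinj := pow_right_injective₀ hq0 hq1.ne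
  rw [hD] at hA
  refine ⟨fun P m => Cl hN s (ψ P) (q ^ m), ?_, fun P Q m n hP hQ => ?_, fun m hm => ?_, ?_⟩
  · show Cl hN s (ψ 0) (q ^ 0)
    rw [map_zero, pow_zero]; exact Cl.zero hN
  · show Cl hN s (ψ (P + Q)) (q ^ (m + n))
    rw [map_add, pow_add]; exact Cl.add hN hs hP hQ
  · have hm : Cl hN s (ψ 0) (q ^ m) := hm
    rw [map_zero] at hm
    obtain ⟨i, ⟨-, hγ⟩ | ⟨hE, -⟩ | ⟨g, hbr | hbr, -⟩⟩ := Cl.cases hN hm
    · exact ⟨i, hinj (by show q ^ m = q ^ (δ * i); rw [hγ, hA, pow_mul])⟩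
    · rw [zero_add] at hE; exact absurd hE hN.T_not_e0
    · exact hbr.elim
    · exact hbr.elim
  intro x y h e hT he
  obtain ⟨hns, hψP⟩ := origin_symm_some hv (r := r) h
  have hT' : IsOfFinAddOrder (ψ (Affine.Point.some x y h)) := ψ.toAddMonoidHom.isOfFinAddOrder hT
  rw [fO_origin_eq hv (r := r)] at he
  rw [hψP] at hT'
  have e0case : E0 v _ (Affine.Point.some (x - r) y hns) → e = 0 := fun hE =>
    hinj (by show q ^ e = q ^ 0; rw [← he, pow_zero, (fO_of_e0 hv hN h₁ hT' hE).2])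
  have midcase : E0 v _ (Affine.Point.some (x - r) y hns + hN.T) →
      v (toOrigin (shortL a b) r).a₄ = q ^ e ∧ 2 * e = δ := fun hE => by
    have h' := fO_of_middle hv hN h₁ hT' hE
    rw [he] at h'
    refine ⟨h'.symm, hinj ?_⟩
    show q ^ (2 * e) = q ^ δ
    rw [mul_comm, pow_mul, h', hA]
  have brcase : ∀ {g : Γ} {t : L}, Br v _ (Affine.Point.some (x - r) y hns) g t →
      g = q ^ e ∧ 2 * e < δ := fun {g t} hb => by
    obtain ⟨hy0, hyg, -⟩ := fO_of_br hv hN h₁ hb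
    rw [fO, if_neg hy0, hyg] at he
    refine ⟨he, ?_⟩
    have hbg := ((br_some hns).1 hb).2.1
    by_contra hle
    have h2 : g ^ 2 ≤ v (toOrigin (shortL a b) r).a₄ ^ 2 := by
      rw [hA, he, ← pow_mul]
      exact pow_le_pow_of_le_one zero_le hq1.le (by omega)
    exact absurd h2 (not_le.2 (pow_lt_pow_left₀ hbg zero_le two_ne_zero))
  refine ⟨?_, ?_, fun m hm => ?_⟩
  · rcases trichotomy hN (Affine.Point.some (x - r) y hns) with hE | hE | ⟨g, t, hb⟩
    · rw [e0case hE]; omega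
    · exact (midcase hE).2.le
    · exact (brcase hb).2.le
  · show ∃ c, Cl hN s (ψ (Affine.Point.some x y h)) (q ^ c)
    rw [hψP]
    rcases exists_cl hN hs (Affine.Point.some (x - r) y hns) with ⟨-, hc⟩ | ⟨hE, hc⟩ |
      ⟨g, ⟨hb, hc⟩ | ⟨hb, hc⟩⟩
    · exact ⟨0, by rwa [pow_zero]⟩
    · exact ⟨e, (midcase hE).1 ▸ hc⟩
    · exact ⟨e, (brcase hb).1 ▸ hc⟩
    · obtain ⟨hg, hlt⟩ := brcase hb
      refine ⟨δ - e, ?_⟩
      rwa [pow_sub₀ _ hq0.ne' (by omega), ← hA, ← hg, ← div_eq_mul_inv]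
  have hm : Cl hN s (ψ (Affine.Point.some x y h)) (q ^ m) := hm
  rw [hψP] at hm
  obtain ⟨i, ⟨hE, hγ⟩ | ⟨hE, hγ⟩ | ⟨g, hbr, hγ⟩⟩ := Cl.cases hN hm
  · refine ⟨i, Or.inl (hinj ?_)⟩
    show q ^ m = q ^ (e + δ * i)
    rw [hγ, e0case hE, zero_add, hA, pow_mul]
  · refine ⟨i, Or.inl (hinj ?_)⟩
    show q ^ m = q ^ (e + δ * i)
    rw [hγ, pow_add, pow_mul, ← hA, (midcase hE).1]
  · obtain ⟨rfl, -⟩ : g = q ^ e ∧ 2 * e < δ := by
      rcases hbr with hb | hb <;> exact brcase hb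
    rw [hA] at hγ
    refine ⟨i, hγ.imp (fun h' => hinj ?_) (fun h' => hinj ?_)⟩
    · show q ^ m = q ^ (e + δ * i)
      rw [h', pow_add, pow_mul]
    · show q ^ (m + e) = q ^ (δ * i)
      rw [pow_add, h', pow_mul]

end FA.CoxParry
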