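import Fermat.Agent.CoxParry.Certificates
import Fermat.Agent.CoxParry.Places
import Mathlib.Data.Nat.ModEq

/-!
# What a certificate says at one place

At a fibre with components of order dividing `b` the distances of the certificate bound the weighted
orders of `fO` by `L δ - L`.
-/

set_option autoImplicit false
set_option linter.unusedSectionVars false
set_option linter.style.haveILetI false

noncomputable section

open WeierstrassCurve FA.Local FA.LevinTorsion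
open scoped Classical

namespace FA.CoxParry

theorem dist_congr {N N' b : ℕ} (h : N ≡ N' [MOD b]) : dist N b = dist N' b := by
  unfold dist; rw [h]

/-- A distance in the components is an order. -/
theorem mul_eq_dist {b δ m e N i : ℕ} (hδ : 0 < δ) (hb : 0 < b) (hm : b * m = δ * N)
    (he : 2 * e ≤ δ) (h : m = e + δ * i ∨ m + e = δ * i) : b * e = δ * dist N b := by
  have hbe : 2 * (b * e) ≤ δ * b := by
    rw [mul_left_comm, mul_comm δ b]; exact Nat.mul_le_mul_left b he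
  rcases h with rfl | h
  · have h1 : b * e + δ * (b * i) = δ * N := by rw [← hm]; ring
    obtain ⟨R, rfl⟩ : ∃ R, N = b * i + R :=
      Nat.exists_eq_add_of_le (Nat.le_of_mul_le_mul_left (by omega) hδ)
    have h2 : b * e = δ * R := by rw [mul_add] at h1; omega
    have hR : 2 * R ≤ b := Nat.le_of_mul_le_mul_left (by rw [mul_left_comm, ← h2]; exact hbe) hδ
    rw [h2, dist, Nat.mul_add_mod, Nat.mod_eq_of_lt (by omega), min_eq_left (by omega)]
  · have h1 : δ * N + b * e = δ * (b * i) := by rw [← hm, ← mul_add, h]; ring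
    have hle : N ≤ b * i := Nat.le_of_mul_le_mul_left (by omega) hδ
    obtain ⟨R, hR⟩ := Nat.exists_eq_add_of_le hle
    have h2 : b * e = δ * R := by rw [hR, mul_add] at h1; omega
    have hR2 : 2 * R ≤ b := Nat.le_of_mul_le_mul_left (by rw [mul_left_comm, ← h2]; exact hbe) hδ
    rw [h2]
    rcases Nat.eq_zero_or_pos R with rfl | hR0
    · rw [mul_zero, dist, show N = b * i by omega, Nat.mul_mod_right]; simp
    obtain ⟨i', rfl⟩ : ∃ i', i = i' + 1 := ⟨i - 1, (Nat.sub_add_cancel (Nat.pos_of_ne_zero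
      fun h0 => by rw [h0, mul_zero] at hR; omega)).symm⟩
    have hN : N = b * i' + (b - R) := by rw [mul_add, mul_one] at hR; omega
    rw [hN, dist, Nat.mul_add_mod, Nat.mod_eq_of_lt (by omega), min_eq_right (by omega),
      Nat.sub_sub_self (by omega)]

/-- **A certificate at one place.** -/
theorem place_weight {G : Type*} [AddCommGroup G] {δ : ℕ} (hδ : 0 < δ) {C : G → ℕ → Prop}
    (h0 : C 0 0) (hadd : ∀ P Q m n, C P m → C Q n → C (P + Q) (m + n))
    (hzero : ∀ m, C 0 m → δ ∣ m) {a b K : ℕ} {w : List (ℕ × ℕ × ℕ)} (hab : a ∣ b) (hb : 0 < b)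
    (hcert : CertLocal a b K w) {P Q : G} (hP : a • P = 0) (hQ : b • Q = 0) {c d : ℕ} (hc : C P c)
    (hd : C Q d) (e : ℕ × ℕ × ℕ → ℕ)
    (hread : ∀ t ∈ w, 2 * e t ≤ δ ∧
      ∀ m, C (t.1 • P + t.2.1 • Q) m → ∃ i, m = e t + δ * i ∨ m + e t = δ * i) :
    K + (w.map fun t => t.2.2 * e t).sum ≤ K * δ := by
  obtain ⟨-, -, hcert⟩ := hcert
  have hsmul : ∀ {R : G} {r : ℕ}, C R r → ∀ n : ℕ, C (n • R) (n * r) := by
    intro R r hR n
    induction n with
    | zero => rw [zero_nsmul, zero_mul]; exact h0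
    | succ n ih => rw [succ_nsmul, add_mul, one_mul]; exact hadd _ _ _ _ ih hR
  obtain ⟨k, rfl⟩ := hab
  have ha : 0 < a := Nat.pos_of_mul_pos_right hb
  obtain ⟨p₀, hp₀⟩ := hzero _ (hP ▸ hsmul hc a)
  obtain ⟨q₀, hq₀⟩ := hzero _ (hQ ▸ hsmul hd (a * k))
  set p := p₀ % a
  set q := q₀ % (a * k)
  have hk : a * k / a = k := Nat.mul_div_cancel_left k ha
  have hS := hcert p (Nat.mod_lt _ ha) q (Nat.mod_lt _ hb)
  rw [hk] at hS
  set g := Nat.gcd (a * k) (Nat.gcd (p * k) q) with hg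
  have hpk : p₀ * k = p * k + a * k * (p₀ / a) := by
    conv_lhs => rw [← Nat.mod_add_div p₀ a]
    ring
  have hqq : q₀ = q + a * k * (q₀ / (a * k)) := (Nat.mod_add_div q₀ (a * k)).symm
  -- the order of the component
  have hdvd : a * k ∣ δ * g := by
    rw [hg, ← Nat.gcd_mul_left, ← Nat.gcd_mul_left]
    refine Nat.dvd_gcd (dvd_mul_left _ _) (Nat.dvd_gcd ?_ ?_)
    · have h' : a * k * c = δ * (p * k) + a * k * (δ * (p₀ / a)) := by
        rw [show a * k * c = k * (a * c) by ring, hp₀, show k * (δ * p₀) = δ * (p₀ * k) by ring,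
          hpk]
        ring
      exact (Nat.dvd_add_left (dvd_mul_right _ _)).1 (h' ▸ dvd_mul_right _ _)
    · have h' : a * k * d = δ * q + a * k * (δ * (q₀ / (a * k))) := by
        rw [hq₀]
        conv_lhs => rw [hqq]
        ring
      exact (Nat.dvd_add_left (dvd_mul_right _ _)).1 (h' ▸ dvd_mul_right _ _)
  have hg0 : 0 < g := Nat.gcd_pos_of_pos_left _ hb
  have hle : a * k ≤ δ * g := Nat.le_of_dvd (Nat.mul_pos hδ hg0) hdvd
  -- each element
  have key : ∀ t ∈ w, a * k * (t.2.2 * e t) =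
      δ * (t.2.2 * dist (t.1 * (p * k) + t.2.1 * q) (a * k)) := by
    intro t ht
    obtain ⟨h2, hm⟩ := hread t ht
    obtain ⟨i, hi⟩ := hm _ (hadd _ _ _ _ (hsmul hc t.1) (hsmul hd t.2.1))
    have hN : t.1 * (p₀ * k) + t.2.1 * q₀ ≡ t.1 * (p * k) + t.2.1 * q [MOD a * k] := by
      refine Nat.ModEq.add (Nat.ModEq.mul_left _ ?_) (Nat.ModEq.mul_left _ ?_)
      · rw [hpk]; exact (Nat.modEq_iff_dvd' (Nat.le_add_right _ _)).2 (by simp) |>.symm
      · exact (Nat.mod_modEq _ _).symm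
    rw [← dist_congr hN, mul_left_comm (a * k), mul_eq_dist hδ hb (N := t.1 * (p₀ * k) + t.2.1 * q₀)
      ?_ h2 hi, mul_left_comm]
    rw [mul_add, show a * k * (t.1 * c) = t.1 * k * (a * c) by ring, hp₀,
      show a * k * (t.2.1 * d) = t.2.1 * (a * k * d) by ring, hq₀]
    ring
  refine Nat.le_of_mul_le_mul_left ?_ hb
  rw [mul_add, ← List.sum_map_mul_left, List.map_congr_left key, List.sum_map_mul_left]
  calc a * k * K + δ * (w.map fun t => t.2.2 * dist (t.1 * (p * k) + t.2.1 * q) (a * k)).sum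
      ≤ δ * g * K + δ * (w.map fun t => t.2.2 * dist (t.1 * (p * k) + t.2.1 * q) (a * k)).sum :=
        Nat.add_le_add_right (Nat.mul_le_mul_right K hle) _
    _ = δ * ((w.map fun t => t.2.2 * dist (t.1 * (p * k) + t.2.1 * q) (a * k)).sum + K * g) := by
        ring
    _ ≤ δ * (K * (a * k)) := Nat.mul_le_mul_left δ hS
    _ = a * k * (K * δ) := by ring

variable {L Γ : Type*} [Field L] [LinearOrderedCommGroupWithZero Γ]

/-- `fO` on points. -/
def pO {a b : L} : (shortL a b).toAffine.Point → L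
  | .zero => 1
  | .some x y _ => fO (shortL a b).toAffine x y

/-- Coordinates, and `fx`, are zero or powers of `q`. -/
def Rat (v : Valuation L Γ) (q : Γ) {a b : L} : (shortL a b).toAffine.Point → Prop
  | .zero => True
  | .some x y _ => (x = 0 ∨ ∃ n : ℕ, v x = q ^ n) ∧ (y = 0 ∨ ∃ n : ℕ, v y = q ^ n) ∧
      (fx (shortL a b).toAffine x y = 0 ∨ ∃ n : ℕ, v (fx (shortL a b).toAffine x y) = q ^ n)

variable {v : Valuation L Γ} (hv : ∀ n : ℤ, n ≠ 0 → v (n : L) = 1) [IsAlgClosed L]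
include hv

/-- **One place.** -/
theorem place_count {π : L} (hπ : π ≠ 0) (hπ1 : v π < 1) {a b : L} [(shortL a b).IsElliptic]
    (ha : v a ≤ 1) (hb : v b ≤ 1) (hmin : ¬(v a ≤ v π ^ 4 ∧ v b ≤ v π ^ 6))
    (ha' : a = 0 ∨ ∃ n : ℕ, v a = v π ^ n) (hb' : b = 0 ∨ ∃ n : ℕ, v b = v π ^ n)
    {δ : ℕ} (hD : v (a ^ 3 - b ^ 2) = v π ^ δ) {na nb K : ℕ} {w : List (ℕ × ℕ × ℕ)}
    (hab : na ∣ nb) (hnb : 0 < nb) (hcert : CertLocal na nb K w)
    {P Q : (shortL a b).toAffine.Point} (hP : na • P = 0) (hQ : nb • Q = 0) (hna : 0 < na)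
    {r r' : ℕ × ℕ} (h3 : 3 • (r.1 • P + r.2 • Q) ≠ 0) (h2 : 2 • (r.1 • P + r.2 • Q) ≠ 0)
    (h2' : 2 • (r'.1 • P + r'.2 • Q) ≠ 0)
    (h2s : 2 • ((r.1 + r'.1) • P + (r.2 + r'.2) • Q) ≠ 0)
    (hw : ∀ t ∈ w, t.1 • P + t.2.1 • Q ≠ 0)
    (hrat : ∀ i j : ℕ, Rat v (v π) (i • P + j • Q))
    (e : ℕ × ℕ × ℕ → ℕ) (he : ∀ t ∈ w, v (pO (t.1 • P + t.2.1 • Q)) = v π ^ e t) :
    (δ = 0 → ∀ t ∈ w, e t = 0) ∧
      (0 < δ → v a = 1 ∧ K + (w.map fun t => t.2.2 * e t).sum ≤ K * δ) := by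
  set q := v π with hq
  have hq0 : 0 < q := v.pos_iff.2 hπ
  have hinj := pow_right_injective₀ hq0 hπ1.ne
  have hPt : IsOfFinAddOrder P := isOfFinAddOrder_iff_nsmul_eq_zero.2 ⟨na, hna, hP⟩
  have hQt : IsOfFinAddOrder Q := isOfFinAddOrder_iff_nsmul_eq_zero.2 ⟨nb, hnb, hQ⟩
  have htor : ∀ i j : ℕ, IsOfFinAddOrder (i • P + j • Q) := fun i j =>
    (AddCommute.all _ _).isOfFinAddOrder_add hPt.nsmul hQt.nsmul
  refine ⟨fun h0 t ht => ?_, fun hδ => ?_⟩
  · rw [h0, pow_zero] at hD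
    rcases hR : t.1 • P + t.2.1 • Q with _ | ⟨x, y, h⟩
    · exact absurd hR (hw t ht)
    have hT := htor t.1 t.2.1
    rw [hR] at hT
    have h1 := val_fO_of_good hv ha hb hD hT
    have h2 := he t ht
    rw [hR, pO, h1] at h2
    exact hinj (by simpa using h2.symm)
  -- semistable
  have hco : ∀ i j : ℕ, 2 • (i • P + j • Q) ≠ 0 →
      ∃ x y h, i • P + j • Q = Affine.Point.some x y h ∧ y ≠ 0 := by
    intro i j h2n
    rcases hR : i • P + j • Q with _ | ⟨x, y, h⟩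
    · exact absurd (by rw [hR, ← Affine.Point.zero_def, nsmul_zero]) h2n
    · refine ⟨x, y, h, rfl, fun e0 => h2n ?_⟩
      rw [hR]
      exact (two_nsmul_eq_zero_iff hv (W := shortL a b) rfl rfl h).2 e0
  obtain ⟨x, y, h, hR, hy0⟩ := hco _ _ h2
  obtain ⟨x₁, y₁, h₁, hR₁, hy10⟩ := hco _ _ h2'
  obtain ⟨x₂, y₂, h', hR₂, hy20⟩ := hco _ _ h2s
  obtain ⟨hx, hy, hfx⟩ : Rat v q (Affine.Point.some x y h) := hR ▸ hrat r.1 r.2
  obtain ⟨-, hy', hfx'⟩ : Rat v q (Affine.Point.some x₁ y₁ h₁) := hR₁ ▸ hrat r'.1 r'.2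
  obtain ⟨-, hy'', hfx''⟩ : Rat v q (Affine.Point.some x₂ y₂ h') :=
    hR₂ ▸ hrat (r.1 + r'.1) (r.2 + r'.2)
  obtain ⟨ne, hye⟩ := hy.resolve_left hy0
  obtain ⟨ne', hye'⟩ := hy'.resolve_left hy10
  obtain ⟨ne'', hye''⟩ := hy''.resolve_left hy20
  have ha1 : v a = 1 := no_additive hv hπ hπ1 ha hb hmin ha' hb' hD hδ (hR ▸ htor r.1 r.2) hy0
    (hR ▸ h3) (hR₁ ▸ htor r'.1 r'.2) hy10
    (by rw [← hR, ← hR₁, ← hR₂, add_nsmul, add_nsmul]; abel) hy20 hye hye' hye'' hx hfx hfx' hfx''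
  refine ⟨ha1, ?_⟩
  obtain ⟨C, hC0, hCadd, hCzero, hCread⟩ := exists_component hv hq0 hπ1 ha1 hb hδ hD
  have hex : ∀ i j : ℕ, ∃ c, C (i • P + j • Q) c := by
    intro i j
    rcases hR : i • P + j • Q with _ | ⟨x, y, h⟩
    · exact ⟨0, hC0⟩
    have hT := htor i j
    have hr := hrat i j
    rw [hR] at hT hr
    obtain ⟨-, hy, hf⟩ := hr
    obtain ⟨n, hn⟩ : ∃ n : ℕ, v (fO (shortL a b).toAffine x y) = q ^ n := by
      by_cases hy0 : y = 0
      · rw [fO, if_pos hy0]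
        refine hf.resolve_left fun e0 => ?_
        rcases ((Affine.nonsingular_iff x y).1 h).2 with h' | h' <;>
          simp only [fx, shortL] at e0 h' <;> refine h' ?_
        · linear_combination -e0
        · rw [hy0]; ring
      · rw [fO, if_neg hy0]; exact hy.resolve_left hy0
    exact (hCread x y h n hT hn).2.1
  obtain ⟨c, hc⟩ := hex 1 0
  obtain ⟨d, hd⟩ := hex 0 1
  rw [one_nsmul, zero_nsmul, add_zero] at hc
  rw [zero_nsmul, zero_add, one_nsmul] at hd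
  refine place_weight hδ hC0 hCadd hCzero hab hnb hcert hP hQ hc hd e fun t ht => ?_
  rcases hR : t.1 • P + t.2.1 • Q with _ | ⟨x, y, h⟩
  · exact absurd hR (hw t ht)
  have hT := htor t.1 t.2.1
  have h2 := he t ht
  rw [hR] at hT h2
  obtain ⟨h2', -, hread⟩ := hCread x y h (e t) hT h2
  exact ⟨h2', hread⟩

end FA.CoxParry
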