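import Fermat.Agent.CoxParry.Count
import Fermat.Agent.LevinTorsion.Main

/-!
# No excluded group on a minimal model

A certificate gives at most `2 m` singular fibres, all multiplicative, against Szpiro's `2 m + 2`.
-/

set_option autoImplicit false
set_option linter.unusedSectionVars false
set_option linter.style.haveILetI false

noncomputable section

open Polynomial WeierstrassCurve FA.SzpiroLine FA.NeronSpecialisation FA.LevinTorsion FA.Local
open FA.FunctionFieldRank (pointMap pointMap_some pointMap_injective)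
open scoped Classical

namespace FA.CoxParry

variable {k : Type*} [Field k] [CharZero k] [IsAlgClosed k] {L : Type*} [Field L]
  (ι : RatFunc k →+* L) {A B : k[X]} {m : ℕ}

theorem val_le_one {V : ValuationSubring L} {q : V.ValueGroup} {ρ : k[X] → L}
    (hρ0 : ρ 0 = 0) (h2 : ∀ p : k[X], p ≠ 0 → ∃ n : ℕ, V.valuation (ρ p) = q ^ n) (hq : q ≤ 1)
    (p : k[X]) : V.valuation (ρ p) ≤ 1 := by
  rcases eq_or_ne p 0 with rfl | hp
  · simp [hρ0]
  · obtain ⟨n, hn⟩ := h2 p hp
    rw [hn]; exact pow_le_one₀ zero_le hq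

theorem natDegree_fxPoly {X₁ : k[X]} (hA : A.natDegree ≤ 4 * m) (hX : X₁.natDegree ≤ 2 * m) :
    (C 3 * X₁ ^ 2 - C 27 * A).natDegree ≤ 4 * m := by
  refine (natDegree_sub_le _ _).trans (max_le ((natDegree_C_mul_le _ _).trans ?_)
    ((natDegree_C_mul_le _ _).trans hA))
  rw [natDegree_pow]; omega

theorem map_fx (X₁ Y₁ : k[X]) :
    ι (algebraMap k[X] (RatFunc k) (C 3 * X₁ ^ 2 - C 27 * A)) =
      fx (shortL (ι (algebraMap k[X] (RatFunc k) A)) (ι (algebraMap k[X] (RatFunc k) B))).toAffine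
        (ι (algebraMap k[X] (RatFunc k) X₁)) (ι (algebraMap k[X] (RatFunc k) Y₁)) := by
  simp only [fx, shortL, map_sub, map_mul, map_pow, map_ofNat]
  ring

theorem nonsingular_map {x y : RatFunc k} (h : (shortEq A B).toAffine.Nonsingular x y) :
    (shortL (ι (algebraMap k[X] (RatFunc k) A)) (ι (algebraMap k[X] (RatFunc k) B))).toAffine.Nonsingular
      (ι x) (ι y) := by
  rw [← map_shortEq ι A B]
  exact ((shortEq A B).toAffine.map_nonsingular ι.injective x y).2 h

/-- Torsion points have polynomial coordinates of bounded degree. -/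
theorem exists_polys (hA : A.natDegree ≤ 4 * m) (hB : B.natDegree ≤ 6 * m)
    [(shortEq A B).IsElliptic] {R : (shortEq A B).toAffine.Point} (hR : IsOfFinAddOrder R)
    (hR0 : R ≠ 0) :
    ∃ (X₁ Y₁ : k[X]) (h : (shortEq A B).toAffine.Nonsingular (algebraMap k[X] (RatFunc k) X₁)
      (algebraMap k[X] (RatFunc k) Y₁)),
      R = .some _ _ h ∧ X₁.natDegree ≤ 2 * m ∧ Y₁.natDegree ≤ 3 * m := by
  set g := algebraMap k[X] (RatFunc k)
  set j := algebraMap (RatFunc k) (AlgebraicClosure (RatFunc k))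
  rcases R with _ | ⟨x, y, h⟩
  · exact absurd rfl hR0
  haveI hell : (shortL (j (g A)) (j (g B))).IsElliptic := by
    rw [← map_shortEq j A B]; infer_instance
  have hT := (pointMap j (map_shortEq j A B)).isOfFinAddOrder hR
  rw [pointMap_some] at hT
  have hfin : ∀ (t : k) (V : ValuationSubring (AlgebraicClosure (RatFunc k))),
      V.valuation (j (g (X - C t))) < 1 →
      (∀ p : k[X], p ≠ 0 → V.valuation (j (g p)) =
        V.valuation (j (g (X - C t))) ^ p.rootMultiplicity t) →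
      (∀ n : ℤ, n ≠ 0 → V.valuation (n : AlgebraicClosure (RatFunc k)) = 1) →
      V.valuation (j x) ≤ 1 ∧ V.valuation (j y) ≤ 1 := by
    intro t V h1 h2 h3
    have hle := val_le_one (ρ := fun p => j (g p)) (by simp) (fun p hp => ⟨_, h2 p hp⟩) h1.le
    have hI := intCoeff_shortL h3 (hle A) (hle B)
    have hx := val_x_le_one h3 hI hT
    exact ⟨hx, le_y_of_le_x hI
      (nonsingular_map j h).1 hx⟩
  obtain ⟨X₁, rfl⟩ := eq_algebraMap_of_integral j (x := x) fun t V h1 h2 h3 =>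
    (hfin t V h1 h2 h3).1
  obtain ⟨Y₁, rfl⟩ := eq_algebraMap_of_integral j (x := y) fun t V h1 h2 h3 =>
    (hfin t V h1 h2 h3).2
  refine ⟨X₁, Y₁, h, rfl, ?_⟩
  obtain ⟨V, hv1, hv2, hv3⟩ := exists_infty j
  have hXr : (RatFunc.X : RatFunc k) ≠ 0 := RatFunc.X_ne_zero
  obtain ⟨u, hu'⟩ : ∃ u, u = j RatFunc.X ^ m := ⟨_, rfl⟩
  have hu : u ≠ 0 := hu' ▸ pow_ne_zero _ ((map_ne_zero j).2 hXr)
  have hdiv : ∀ (z : RatFunc k) (i : ℕ), j z / u ^ i = j (z / RatFunc.X ^ (i * m)) := fun z i => by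
    rw [map_div₀, map_pow, hu', ← pow_mul, mul_comm m]
  have hle : ∀ (p : k[X]) (i : ℕ), p.natDegree ≤ i * m → V.valuation (j (g p) / u ^ i) ≤ 1 :=
    fun p i hp => by
      rw [hdiv]
      rcases eq_or_ne p 0 with rfl | hp0
      · simp
      · rw [hv2 p _ hp0 hp]; exact pow_le_one₀ zero_le hv1.le
  have hD0 : j (g A) ^ 3 - j (g B) ^ 2 ≠ 0 := fun e0 =>
    (shortL (j (g A)) (j (g B))).isUnit_Δ.ne_zero (by rw [Δ_shortL, e0, mul_zero])
  haveI : (shortL (j (g A) / u ^ 4) (j (g B) / u ^ 6)).IsElliptic := isElliptic_shortL hv3 (by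
    rw [show (j (g A) / u ^ 4) ^ 3 - (j (g B) / u ^ 6) ^ 2 =
      (j (g A) ^ 3 - j (g B) ^ 2) / u ^ 12 by field_simp]
    exact div_ne_zero hD0 (pow_ne_zero _ hu))
  obtain ⟨φ, hφ⟩ := exists_scaleEquiv (a := j (g A)) (b := j (g B)) hu
  obtain ⟨h', e'⟩ := hφ _ _ (nonsingular_map j h)
  have hT' := φ.toAddMonoidHom.isOfFinAddOrder hT
  rw [AddEquiv.coe_toAddMonoidHom, e'] at hT'
  have hI := intCoeff_shortL hv3 (hle A 4 hA) (hle B 6 hB)
  have hx := val_x_le_one hv3 hI hT'
  have hy := le_y_of_le_x hI h'.1 hx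
  rw [hdiv] at hx hy
  exact ⟨natDegree_le_of_integral j hv1 hv2 hx, natDegree_le_of_integral j hv1 hv2 hy⟩

/-- The polynomial of `fO`. -/
def fPoly (A X₁ Y₁ : k[X]) : k[X] := if Y₁ = 0 then C 3 * X₁ ^ 2 - C 27 * A else Y₁

set_option maxHeartbeats 1000000 in
/-- **Semistable, and the count of singular fibres.** -/
theorem semistable_bound (hmin : Minimal A B m) (hm : 0 < m) (hD : A ^ 3 - B ^ 2 ≠ 0)
    [(shortEq A B).IsElliptic] {na nb K : ℕ} {w : List (ℕ × ℕ × ℕ)} (hab : na ∣ nb)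
    (hnb : 0 < nb) {r r' : ℕ × ℕ} (n3 : ¬(na ∣ 3 * r.1 ∧ nb ∣ 3 * r.2))
    (n2 : ¬(na ∣ 2 * r.1 ∧ nb ∣ 2 * r.2)) (n2' : ¬(na ∣ 2 * r'.1 ∧ nb ∣ 2 * r'.2))
    (n2s : ¬(na ∣ 2 * (r.1 + r'.1) ∧ nb ∣ 2 * (r.2 + r'.2))) (hcert : CertLocal na nb K w) {P Q : (shortEq A B).toAffine.Point}
    (hP : na • P = 0) (hQ : nb • Q = 0)
    (hinj : ∀ i j : ℕ, i < na → j < nb → i • P + j • Q = 0 → i = 0 ∧ j = 0) :
    (∀ t, (A ^ 3 - B ^ 2).IsRoot t → ¬A.IsRoot t) ∧
      ((A ^ 3 - B ^ 2).natDegree < 12 * m → A.natDegree = 4 * m) ∧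
      (¬∃ c : k, A ^ 3 = C c * (A ^ 3 - B ^ 2)) ∧
      K * (2 * m + 2) +
          (w.map fun t => t.2.2 * if na ∣ 2 * t.1 ∧ nb ∣ 2 * t.2.1 then 4 else 3).sum * m ≤
        K * (12 * m) := by
  have hna : 0 < na := Nat.pos_of_dvd_of_pos hab hnb
  set D := A ^ 3 - B ^ 2 with hDdef
  set g := algebraMap k[X] (RatFunc k)
  set j := algebraMap (RatFunc k) (AlgebraicClosure (RatFunc k))
  haveI hell : (shortL (j (g A)) (j (g B))).IsElliptic := by
    rw [← map_shortEq j A B]; infer_instance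
  set φ := pointMap j (map_shortEq j A B)
  have hφinj : Function.Injective φ := pointMap_injective j _
  have hDι : j (g A) ^ 3 - j (g B) ^ 2 = j (g D) := by simp only [hDdef, map_sub, map_pow]
  have hgD : ∀ {p : k[X]}, p ≠ 0 → g p ≠ 0 := fun hp => RatFunc.algebraMap_ne_zero hp
  have hPt : IsOfFinAddOrder P := isOfFinAddOrder_iff_nsmul_eq_zero.2 ⟨na, hna, hP⟩
  have hQt : IsOfFinAddOrder Q := isOfFinAddOrder_iff_nsmul_eq_zero.2 ⟨nb, by omega, hQ⟩
  have htor : ∀ i j : ℕ, IsOfFinAddOrder (i • P + j • Q) := fun i j =>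
    (AddCommute.all _ _).isOfFinAddOrder_add hPt.nsmul hQt.nsmul
  have hker : ∀ c i j : ℕ, c • (i • P + j • Q) = 0 → na ∣ c * i ∧ nb ∣ c * j := by
    intro c i j h
    rw [nsmul_add, ← mul_nsmul', ← mul_nsmul', ← Nat.mod_add_div (c * i) na,
      ← Nat.mod_add_div (c * j) nb, add_nsmul, add_nsmul, mul_nsmul, mul_nsmul, hP, hQ,
      nsmul_zero, nsmul_zero, add_zero, add_zero] at h
    obtain ⟨h1, h2⟩ := hinj _ _ (Nat.mod_lt _ hna) (Nat.mod_lt _ hnb) h
    exact ⟨Nat.dvd_of_mod_eq_zero h1, Nat.dvd_of_mod_eq_zero h2⟩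
  obtain ⟨hK, hwmem, -⟩ := id hcert
  have hw : ∀ t ∈ w, t.1 • P + t.2.1 • Q ≠ 0 := fun t ht e => by
    obtain ⟨h1, h2, h3⟩ := hwmem t ht
    obtain ⟨e1, e2⟩ := hinj _ _ h1 h2 e
    omega
  -- the polynomial coordinates
  have hpts : ∀ t ∈ w, ∃ (X₁ Y₁ : k[X]) (h : (shortEq A B).toAffine.Nonsingular (g X₁) (g Y₁)),
      t.1 • P + t.2.1 • Q = .some _ _ h ∧ X₁.natDegree ≤ 2 * m ∧ Y₁.natDegree ≤ 3 * m :=
    fun t ht => exists_polys hmin.1 hmin.2.1 (htor _ _) (hw t ht)
  choose! X₁ Y₁ hns heq hdX hdY using hpts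
  set F : ℕ × ℕ × ℕ → k[X] := fun t => fPoly A (X₁ t) (Y₁ t)
  set top : ℕ × ℕ × ℕ → ℕ := fun t => if Y₁ t = 0 then 4 * m else 3 * m
  have hFdeg : ∀ t ∈ w, (F t).natDegree ≤ top t := fun t ht => by
    simp only [F, top, fPoly]
    split_ifs
    · exact natDegree_fxPoly hmin.1 (hdX t ht)
    · exact hdY t ht
  have hF0 : ∀ t ∈ w, F t ≠ 0 := fun t ht => by
    simp only [F, fPoly]
    split_ifs with hY
    · intro e
      rcases ((Affine.nonsingular_iff _ _).1 (hns t ht)).2 with h' | h' <;> refine h' ?_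
      · have := congrArg g e
        simp only [g, map_sub, map_mul, map_pow, map_ofNat, map_zero] at this
        simp only [shortEq, g, hY, map_zero]
        linear_combination -this
      · simp only [shortEq, g, hY, map_zero]; ring
    · exact hY
  have htop : ∀ t ∈ w, (if na ∣ 2 * t.1 ∧ nb ∣ 2 * t.2.1 then 4 else 3) * m ≤ top t := by
    intro t ht
    simp only [top]
    split_ifs with hdv hY hY
    · rfl
    · refine absurd ?_ hY
      have h2 : 2 • (t.1 • P + t.2.1 • Q) = 0 := by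
        rw [nsmul_add, ← mul_nsmul', ← mul_nsmul']
        obtain ⟨⟨c, hc⟩, ⟨d, hd⟩⟩ := hdv
        rw [hc, hd, mul_nsmul, mul_nsmul, hP, hQ, nsmul_zero, nsmul_zero, add_zero]
      rw [heq t ht, two_nsmul, ← eq_neg_iff_add_eq_zero, Affine.Point.neg_some,
        Affine.Point.some.injEq] at h2
      refine RatFunc.algebraMap_injective k ?_
      have h2 := h2.2
      simp only [Affine.negY, shortEq, zero_mul, sub_zero] at h2
      rw [map_zero]
      linear_combination (1 / 2 : RatFunc k) * h2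
    · omega
    · exact le_rfl
  have hφco : ∀ i j' : ℕ, φ (i • P + j' • Q) = i • φ P + j' • φ Q := fun i j' => by
    rw [map_add, map_nsmul, map_nsmul]
  -- rationality at a place given by an embedding of polynomials
  have hcoord : ∀ (i j' : ℕ), i • φ P + j' • φ Q = 0 ∨ ∃ (X' Y' : k[X]) (h' : _),
      i • φ P + j' • φ Q = Affine.Point.some (W' := (shortL (j (g A)) (j (g B))).toAffine)
        (j (g X')) (j (g Y')) h' ∧ X'.natDegree ≤ 2 * m ∧ Y'.natDegree ≤ 3 * m := by
    intro i j'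
    rw [← hφco]
    rcases eq_or_ne (i • P + j' • Q) 0 with e | e
    · exact Or.inl (by rw [e, map_zero])
    obtain ⟨X', Y', h, hR, h1, h2⟩ := exists_polys hmin.1 hmin.2.1 (htor i j') e
    exact Or.inr ⟨X', Y', _, by rw [hR, pointMap_some], h1, h2⟩
  have hval : ∀ t (ht : t ∈ w), pO (t.1 • φ P + t.2.1 • φ Q) = j (g (F t)) := by
    intro t ht
    rw [← hφco, heq t ht, pointMap_some]
    simp only [pO, fO, F, fPoly]
    by_cases hY : Y₁ t = 0
    · rw [if_pos hY, if_pos (by rw [hY, map_zero, map_zero]), ← map_fx j]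
    · rw [if_neg hY, if_neg ((map_ne_zero j).2 (hgD hY))]
  -- finite places
  have hfin : ∀ t₀ : k, (D.rootMultiplicity t₀ = 0 → ∀ t ∈ w, (F t).rootMultiplicity t₀ = 0) ∧
      (0 < D.rootMultiplicity t₀ → ¬A.IsRoot t₀ ∧
        K + (w.map fun t => t.2.2 * (F t).rootMultiplicity t₀).sum ≤
          K * D.rootMultiplicity t₀) := by
    intro t₀
    obtain ⟨V, h1, h2, h3⟩ := exists_at j t₀
    have hle := val_le_one (ρ := fun p => j (g p)) (by simp) (fun p hp => ⟨_, h2 p hp⟩) h1.le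
    have hpow : ∀ p : k[X], j (g p) = 0 ∨ ∃ n : ℕ,
        V.valuation (j (g p)) = V.valuation (j (g (X - C t₀))) ^ n := fun p => by
      rcases eq_or_ne p 0 with rfl | hp
      · exact Or.inl (by simp)
      · exact Or.inr ⟨_, h2 p hp⟩
    have hπ : j (g (X - C t₀)) ≠ 0 := (map_ne_zero j).2 (hgD (X_sub_C_ne_zero t₀))
    have hm' : ¬(V.valuation (j (g A)) ≤ V.valuation (j (g (X - C t₀))) ^ 4 ∧
        V.valuation (j (g B)) ≤ V.valuation (j (g (X - C t₀))) ^ 6) := by
      rintro ⟨hA4, hB6⟩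
      refine hmin.2.2.2 t₀ ⟨?_, ?_⟩
      · rcases eq_or_ne A 0 with hA | hA
        · rw [hA]; exact dvd_zero _
        rw [h2 A hA, pow_le_pow_iff_right_of_lt_one₀ (V.valuation.pos_iff.2 hπ) h1] at hA4
        exact (le_rootMultiplicity_iff hA).1 hA4
      · rcases eq_or_ne B 0 with hB | hB
        · rw [hB]; exact dvd_zero _
        rw [h2 B hB, pow_le_pow_iff_right_of_lt_one₀ (V.valuation.pos_iff.2 hπ) h1] at hB6
        exact (le_rootMultiplicity_iff hB).1 hB6
    obtain ⟨hgood, hbad⟩ := place_count (v := V.valuation) h3 hπ h1 (hle A) (hle B) hm'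
      (hpow A) (hpow B) (δ := D.rootMultiplicity t₀) (by rw [hDι, h2 D hD]) hab (by omega) hcert
      (P := φ P) (Q := φ Q) (by rw [← map_nsmul, hP, map_zero])
      (by rw [← map_nsmul, hQ, map_zero]) hna
      (r := r) (r' := r')
      (fun e => n3 (hker 3 _ _ (hφinj (by rw [map_nsmul, hφco, e, map_zero]))))
      (fun e => n2 (hker 2 _ _ (hφinj (by rw [map_nsmul, hφco, e, map_zero]))))
      (fun e => n2' (hker 2 _ _ (hφinj (by rw [map_nsmul, hφco, e, map_zero]))))
      (fun e => n2s (hker 2 _ _ (hφinj (by rw [map_nsmul, hφco, e, map_zero]))))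
      (fun t ht e => hw t ht (hφinj (by rw [hφco, e, map_zero])))
      (fun i j' => by
        rcases hcoord i j' with e | ⟨X', Y', h', e, -, -⟩ <;> rw [e]
        · trivial
        · exact ⟨hpow X', hpow Y', by rw [← map_fx j]; exact hpow _⟩)
      (fun t => (F t).rootMultiplicity t₀)
      (fun t ht => by rw [hval t ht]; exact h2 _ (hF0 t ht))
    refine ⟨hgood, fun hδ => ?_⟩
    obtain ⟨ha, hsum⟩ := hbad hδ
    refine ⟨fun hAt => ?_, hsum⟩
    rcases eq_or_ne A 0 with hA | hA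
    · rw [hA, map_zero, map_zero, map_zero] at ha; exact zero_ne_one ha
    rw [h2 A hA] at ha
    exact (pow_lt_one₀ zero_le h1 ((rootMultiplicity_pos hA).2 hAt).ne').ne ha
  -- infinity
  have hXr : (RatFunc.X : RatFunc k) ≠ 0 := RatFunc.X_ne_zero
  obtain ⟨u, hu'⟩ : ∃ u, u = j RatFunc.X ^ m := ⟨_, rfl⟩
  have hu : u ≠ 0 := hu' ▸ pow_ne_zero _ ((map_ne_zero j).2 hXr)
  have hdiv : ∀ (z : RatFunc k) (i : ℕ), j z / u ^ i = j (z / RatFunc.X ^ (i * m)) := fun z i => by
    rw [map_div₀, map_pow, hu', ← pow_mul, mul_comm m]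
  obtain ⟨V, hv1, hv2, hv3⟩ := exists_infty j
  have hdegD : D.natDegree ≤ 12 * m := by
    refine (natDegree_sub_le _ _).trans (max_le ?_ ?_) <;> rw [natDegree_pow]
    · linarith [hmin.1]
    · linarith [hmin.2.1]
  have hD' : (j (g A) / u ^ 4) ^ 3 - (j (g B) / u ^ 6) ^ 2 =
      j (g D / RatFunc.X ^ (12 * m)) := by
    rw [← hdiv, ← hDι]; field_simp
  haveI : (shortL (j (g A) / u ^ 4) (j (g B) / u ^ 6)).IsElliptic := isElliptic_shortL hv3 (by
    rw [hD']; exact (map_ne_zero j).2 (div_ne_zero (hgD hD) (pow_ne_zero _ hXr)))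
  obtain ⟨ψ, hψ⟩ := exists_scaleEquiv (a := j (g A)) (b := j (g B)) hu
  set q := V.valuation (j (RatFunc.X : RatFunc k)⁻¹)
  have hπ : j (RatFunc.X : RatFunc k)⁻¹ ≠ 0 := (map_ne_zero j).2 (inv_ne_zero hXr)
  have hpow : ∀ (p : k[X]) (i : ℕ), p.natDegree ≤ i * m → j (g p) / u ^ i = 0 ∨
      ∃ n : ℕ, V.valuation (j (g p) / u ^ i) = q ^ n := fun p i hp => by
    rw [hdiv]
    rcases eq_or_ne p 0 with rfl | hp0
    · exact Or.inl (by simp)
    · exact Or.inr ⟨_, hv2 p _ hp0 hp⟩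
  have hle : ∀ (p : k[X]) (i : ℕ), p.natDegree ≤ i * m → V.valuation (j (g p) / u ^ i) ≤ 1 :=
    fun p i hp => by
      rcases hpow p i hp with e | ⟨n, hn⟩
      · rw [e, map_zero]; exact zero_le
      · rw [hn]; exact pow_le_one₀ zero_le hv1.le
  have hm' : ¬(V.valuation (j (g A) / u ^ 4) ≤ q ^ 4 ∧ V.valuation (j (g B) / u ^ 6) ≤ q ^ 6) := by
    rintro ⟨hA4, hB6⟩
    refine hmin.2.2.1 ⟨?_, ?_⟩
    · rcases eq_or_ne A 0 with hA | hA
      · rw [hA, natDegree_zero]; omega
      rw [hdiv, hv2 A _ hA hmin.1,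
        pow_le_pow_iff_right_of_lt_one₀ (V.valuation.pos_iff.2 hπ) hv1] at hA4
      have := hmin.1; omega
    · rcases eq_or_ne B 0 with hB | hB
      · rw [hB, natDegree_zero]; omega
      rw [hdiv, hv2 B _ hB hmin.2.1,
        pow_le_pow_iff_right_of_lt_one₀ (V.valuation.pos_iff.2 hπ) hv1] at hB6
      have := hmin.2.1; omega
  obtain ⟨hgood, hbad⟩ := place_count (v := V.valuation) hv3 hπ hv1 (hle A 4 hmin.1)
    (hle B 6 hmin.2.1) hm' (hpow A 4 hmin.1) (hpow B 6 hmin.2.1)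
    (δ := 12 * m - D.natDegree) (by rw [hD', hv2 D _ hD hdegD]) hab (by omega) hcert
    (P := ψ (φ P)) (Q := ψ (φ Q)) (by rw [← map_nsmul, ← map_nsmul, hP, map_zero, map_zero])
    (by rw [← map_nsmul, ← map_nsmul, hQ, map_zero, map_zero]) hna
    (r := r) (r' := r')
    (fun e => n3 (hker 3 _ _ (hφinj (ψ.injective (by
      rw [map_nsmul, map_nsmul, hφco, map_add, map_nsmul, map_nsmul, e, map_zero, map_zero])))))
    (fun e => n2 (hker 2 _ _ (hφinj (ψ.injective (by
      rw [map_nsmul, map_nsmul, hφco, map_add, map_nsmul, map_nsmul, e, map_zero, map_zero])))))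
    (fun e => n2' (hker 2 _ _ (hφinj (ψ.injective (by
      rw [map_nsmul, map_nsmul, hφco, map_add, map_nsmul, map_nsmul, e, map_zero, map_zero])))))
    (fun e => n2s (hker 2 _ _ (hφinj (ψ.injective (by
      rw [map_nsmul, map_nsmul, hφco, map_add, map_nsmul, map_nsmul, e, map_zero, map_zero])))))
    (fun t ht e => hw t ht (hφinj (ψ.injective (by
      rw [hφco, map_add, map_nsmul, map_nsmul, e, map_zero, map_zero]))))
    (fun i j' => by
      rw [← map_nsmul ψ, ← map_nsmul ψ, ← map_add ψ]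
      rcases hcoord i j' with e | ⟨X', Y', h', e, hX', hY'⟩ <;> rw [e]
      · rw [map_zero]; trivial
      · obtain ⟨h'', e''⟩ := hψ _ _ h'
        rw [e'']
        refine ⟨hpow X' 2 hX', hpow Y' 3 hY', ?_⟩
        rw [fO_scale hu, ← map_fx j]
        exact hpow _ 4 (natDegree_fxPoly hmin.1 hX'))
    (fun t => top t - (F t).natDegree)
    (fun t ht => by
      rw [← map_nsmul ψ, ← map_nsmul ψ, ← map_add ψ, ← hφco, heq t ht, pointMap_some]
      obtain ⟨h'', e''⟩ := hψ _ _ (nonsingular_map j (hns t ht))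
      rw [e'']
      simp only [pO, fO]
      by_cases hY : Y₁ t = 0
      · have hFt : F t = C 3 * X₁ t ^ 2 - C 27 * A := by simp only [F, fPoly, if_pos hY]
        rw [if_pos (by rw [hY]; simp), fO_scale hu, ← map_fx j, ← hFt, hdiv,
          hv2 _ _ (hF0 t ht) (by have := hFdeg t ht; simp only [top, if_pos hY] at this; exact this),
          show top t = 4 * m by simp only [top, if_pos hY]]
      · have hFt : F t = Y₁ t := by simp only [F, fPoly, if_neg hY]
        rw [if_neg (div_ne_zero ((map_ne_zero j).2 (hgD hY)) (pow_ne_zero _ hu)), hdiv,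
          hv2 _ _ hY (hdY t ht), hFt, show top t = 3 * m by simp only [top, if_neg hY]])
  -- the conclusion
  have hssinf : D.natDegree < 12 * m → A.natDegree = 4 * m := fun hlt => by
    have ha := (hbad (by omega)).1
    rcases eq_or_ne A 0 with hA | hA
    · rw [hA, map_zero, map_zero, zero_div, map_zero] at ha; exact absurd ha zero_ne_one
    rw [hdiv, hv2 A _ hA hmin.1] at ha
    by_contra hne
    exact (pow_lt_one₀ zero_le hv1 (by have := hmin.1; omega)).ne ha
  have hss : ∀ t, D.IsRoot t → ¬A.IsRoot t := fun t ht =>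
    ((hfin t).2 ((rootMultiplicity_pos hD).2 ht)).1
  have hj : ¬∃ c : k, A ^ 3 = C c * D := by
    rintro ⟨c, hc⟩
    rcases Nat.eq_zero_or_pos D.natDegree with hd | hd
    · have h' := congrArg natDegree hc
      rw [natDegree_pow, hssinf (by omega)] at h'
      have := natDegree_C_mul_le c D
      omega
    · obtain ⟨t, ht⟩ := IsAlgClosed.exists_root D
        (fun e => hd.ne' (natDegree_eq_zero_iff_degree_le_zero.2 e.le))
      refine hss t ht (eq_zero_of_pow_eq_zero (n := 3) ?_)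
      rw [← eval_pow, hc, eval_mul, ht.eq_zero, mul_zero]
  set T := D.roots.toFinset with hT
  set ε := if D.natDegree < 12 * m then 1 else 0 with hε
  have hsz := szpiro hmin hD hj
  have hN : SzpiroLine.conductor A B m = T.card + ε := by
    rw [SzpiroLine.conductor, Finset.card_eq_sum_ones]
    congr 1
    · exact Finset.sum_congr rfl fun t ht =>
        if_neg (hss t ((mem_roots hD).1 (Multiset.mem_toFinset.1 ht)))
    · rw [hε]
      split_ifs with h1' h2
      · have := hssinf h1'; omega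
      · rfl
      · rfl
  have hsumT : K * T.card + ∑ t₀ ∈ T, (w.map fun t => t.2.2 * (F t).rootMultiplicity t₀).sum ≤
      K * D.natDegree := by
    rw [natDegree_eq_sum_roots D, Finset.mul_sum, Finset.card_eq_sum_ones, Finset.mul_sum,
      ← Finset.sum_add_distrib]
    refine Finset.sum_le_sum fun t₀ ht₀ => ?_
    rw [mul_one]
    exact ((hfin t₀).2 ((rootMultiplicity_pos hD).2
      ((mem_roots hD).1 (Multiset.mem_toFinset.1 ht₀)))).2
  have hsuminf : K * ε + (w.map fun t => t.2.2 * (top t - (F t).natDegree)).sum ≤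
      K * (12 * m - D.natDegree) := by
    rw [hε]
    split_ifs with h1'
    · rw [mul_one]; exact (hbad (by omega)).2
    · rw [mul_zero, zero_add, List.sum_eq_zero]
      · exact zero_le
      intro x hx
      rw [List.mem_map] at hx
      obtain ⟨t, ht, rfl⟩ := hx
      rw [hgood (by omega) t ht, mul_zero]
  have hroots : ∀ t ∈ w, ∑ t₀ ∈ T, (F t).rootMultiplicity t₀ = (F t).natDegree := by
    intro t ht
    rw [natDegree_eq_sum_roots]
    refine (Finset.sum_subset (fun t₀ ht₀ => ?_) fun t₀ _ ht₀ => ?_).symm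
    · rw [Multiset.mem_toFinset, mem_roots (hF0 t ht)] at ht₀
      rw [hT, Multiset.mem_toFinset, mem_roots hD]
      by_contra hne
      exact absurd ((hfin t₀).1 (rootMultiplicity_eq_zero hne) t ht)
        ((rootMultiplicity_pos (hF0 t ht)).2 ht₀).ne'
    · rw [← count_roots, Multiset.count_eq_zero]
      exact fun h' => ht₀ (Multiset.mem_toFinset.2 h')
  have hswap : ∀ l : List (ℕ × ℕ × ℕ), (∀ t ∈ l, t ∈ w) →
      (l.map fun t => t.2.2 * if na ∣ 2 * t.1 ∧ nb ∣ 2 * t.2.1 then 4 else 3).sum * m ≤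
        ∑ t₀ ∈ T, (l.map fun t => t.2.2 * (F t).rootMultiplicity t₀).sum +
          (l.map fun t => t.2.2 * (top t - (F t).natDegree)).sum := by
    intro l hl
    induction l with
    | nil => simp
    | cons t l ih =>
      have ht : t ∈ w := hl t (by simp)
      have := ih fun s hs => hl s (by simp [hs])
      simp only [List.map_cons, List.sum_cons, add_mul, Finset.sum_add_distrib, ← Finset.mul_sum,
        hroots t ht]
      have h1 : t.2.2 * (F t).natDegree + t.2.2 * (top t - (F t).natDegree) = t.2.2 * top t := by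
        rw [← mul_add, Nat.add_sub_cancel' (hFdeg t ht)]
      have h2 : t.2.2 * (if na ∣ 2 * t.1 ∧ nb ∣ 2 * t.2.1 then 4 else 3) * m ≤ t.2.2 * top t := by
        rw [mul_assoc]; exact Nat.mul_le_mul_left _ (htop t ht)
      omega
  have hall := hswap w fun _ h => h
  have hdeg : K * D.natDegree + K * (12 * m - D.natDegree) = K * (12 * m) := by
    rw [← mul_add, Nat.add_sub_cancel' hdegD]
  refine ⟨hss, hssinf, hj, ?_⟩
  have h2m : K * (2 * m + 2) ≤ K * (T.card + ε) := Nat.mul_le_mul_left K (by omega)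
  rw [mul_add K T.card] at h2m
  omega

/-- **No excluded group.** -/
theorem false_of_cert (hmin : Minimal A B m) (hm : 0 < m) (hD : A ^ 3 - B ^ 2 ≠ 0)
    [(shortEq A B).IsElliptic] {na nb K : ℕ} {w : List (ℕ × ℕ × ℕ)} (hab : na ∣ nb)
    (hb5 : 5 ≤ nb) (hcert : Cert na nb K w) {P Q : (shortEq A B).toAffine.Point}
    (hP : na • P = 0) (hQ : nb • Q = 0)
    (hinj : ∀ i j : ℕ, i < na → j < nb → i • P + j • Q = 0 → i = 0 ∧ j = 0) : False := by
  obtain ⟨-, -, -, h⟩ := semistable_bound hmin hm hD hab (by omega) (r := (0, 1)) (r' := (0, 1))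
    (fun hh => Nat.not_dvd_of_pos_of_lt (by norm_num) (show _ < _ by simp; omega) hh.2)
    (fun hh => Nat.not_dvd_of_pos_of_lt (by norm_num) (show _ < _ by simp; omega) hh.2)
    (fun hh => Nat.not_dvd_of_pos_of_lt (by norm_num) (show _ < _ by simp; omega) hh.2)
    (fun hh => Nat.not_dvd_of_pos_of_lt (by norm_num) (show _ < _ by simp; omega) hh.2)
    hcert.1 hP hQ hinj
  have h10 := Nat.mul_le_mul_right m hcert.2
  have e : K * (2 * m + 2) + 10 * K * m = K * (12 * m) + 2 * K := by ring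
  have := hcert.1.1
  omega

end FA.CoxParry
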