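import Fermat.Agent.CoxParry.LevelCertificates
import Fermat.Agent.CoxParry.Classification

/-!
# Torsion and the level of a minimal model

The larger groups need a level above one, and the Tate curve of a point of order seven has level two.
-/

set_option autoImplicit false
set_option linter.unusedSectionVars false
set_option linter.style.haveILetI false

namespace FA.CoxParry

/-- Elements excluding additive fibres, for each group with a bound. -/
theorem exists_semistable_pair : ∀ p ∈ levelList, p.1 ∣ p.2.1 ∧ 0 < p.2.1 ∧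
    ∃ r r' : Fin 2 × Fin 2,
      ¬(p.1 ∣ 3 * r.1.val ∧ p.2.1 ∣ 3 * r.2.val) ∧ ¬(p.1 ∣ 2 * r.1.val ∧ p.2.1 ∣ 2 * r.2.val) ∧
      ¬(p.1 ∣ 2 * r'.1.val ∧ p.2.1 ∣ 2 * r'.2.val) ∧
      ¬(p.1 ∣ 2 * (r.1.val + r'.1.val) ∧ p.2.1 ∣ 2 * (r.2.val + r'.2.val)) := by
  decide +kernel

noncomputable section

open Polynomial WeierstrassCurve FA.SzpiroLine FA.LevinTorsion
open FA.Thirteen (tateCurve)
open scoped Classical

variable {k : Type*} [Field k] [CharZero k] [IsAlgClosed k]

/-- **The level is at least the bound of the group.** -/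
theorem level_ge {E : WeierstrassCurve (RatFunc k)} [E.IsElliptic] (hE : NotConst E) {A B : k[X]}
    {m : ℕ} {C₀ : VariableChange (RatFunc k)} (hC : C₀ • E = shortEq A B)
    (hmin : Minimal A B m) {a b n : ℕ} (h : (a, b, n) ∈ levelList)
    (φ : ZMod a × ZMod b →+ E.toAffine.Point) (hφ : Function.Injective φ) : n ≤ m := by
  haveI : (shortEq A B).IsElliptic := by rw [← hC]; infer_instance
  have hD : A ^ 3 - B ^ 2 ≠ 0 := fun e => by
    have h1 := (shortEq A B).isUnit_Δ.ne_zero
    rw [Δ_shortEq, e, map_zero, mul_zero] at h1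
    exact h1 rfl
  have hm : 0 < m := by
    by_contra h0
    refine hE ⟨⟨0, 0, 0, -27 * A.coeff 0, -54 * B.coeff 0⟩, C₀, ?_⟩
    have hA : A = C (A.coeff 0) := eq_C_of_natDegree_eq_zero (by have := hmin.1; omega)
    have hB : B = C (B.coeff 0) := eq_C_of_natDegree_eq_zero (by have := hmin.2.1; omega)
    rw [hC, shortEq, hA, hB]
    ext <;> simp only [WeierstrassCurve.map, map_zero, map_mul, map_neg, map_ofNat,
      algebraMap_const, coeff_C_zero]
  obtain ⟨P, Q, hP, hQ, hinj⟩ := exists_generators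
    ((FA.Frob.vcEquiv C₀ hC).symm.toAddMonoidHom.comp φ)
    ((FA.Frob.vcEquiv C₀ hC).symm.injective.comp hφ)
  obtain ⟨K, w, hcert, hn⟩ := exists_levelCert h
  obtain ⟨hab, hb, r, r', h1, h2, h3, h4⟩ := exists_semistable_pair _ h
  obtain ⟨-, -, -, hbd⟩ := semistable_bound hmin hm hD hab hb (r := (r.1.val, r.2.val))
    (r' := (r'.1.val, r'.2.val)) h1 h2 h3 h4 hcert hP hQ hinj
  by_contra hlt
  obtain ⟨d, hd⟩ := Nat.exists_eq_add_of_le (show m ≤ n - 1 by omega)
  set S := (w.map fun t => t.2.2 * if a ∣ 2 * t.1 ∧ b ∣ 2 * t.2.1 then 4 else 3).sum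
  rw [hd] at hn
  have hS : 2 * K + S * m ≤ 10 * K * m := by
    have e1 : K * (2 * m + 2) = 2 * K * m + 2 * K := by ring
    have e2 : K * (12 * m) = 10 * K * m + 2 * K * m := by ring
    omega
  have h10 : S ≤ 10 * K := by
    by_contra hc
    have := Nat.mul_le_mul_right m (not_le.1 hc).le
    have := hcert.1
    omega
  have := Nat.mul_le_mul_left d h10
  have e3 : (m + d) * (10 * K) = 10 * K * m + d * (10 * K) := by ring
  have e4 : (m + d) * S = S * m + d * S := by ring
  omega

/-- The groups at level at most `m`. -/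
def groupsUpTo (m : ℕ) : List (ℕ × ℕ) :=
  nineteen.filter fun p => decide (∀ q ∈ levelList, p = (q.1, q.2.1) → q.2.2 ≤ m)

/-- **The torsion group at a given level.** -/
theorem torsion_of_level {E : WeierstrassCurve (RatFunc k)} [E.IsElliptic] (hE : NotConst E)
    {A B : k[X]} {m : ℕ} {C₀ : VariableChange (RatFunc k)} (hC : C₀ • E = shortEq A B)
    (hmin : Minimal A B m) :
    ∃ p ∈ groupsUpTo m,
      Nonempty (AddCommGroup.torsion E.toAffine.Point ≃+ ZMod p.1 × ZMod p.2) := by
  obtain ⟨p, hp, ⟨e⟩⟩ := torsion_classification hE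
  refine ⟨p, List.mem_filter.2 ⟨hp, decide_eq_true ?_⟩, ⟨e⟩⟩
  rintro ⟨a, b, n⟩ hq rfl
  exact level_ge hE hC hmin hq ((AddCommGroup.torsion E.toAffine.Point).subtype.comp
    e.symm.toAddMonoidHom) (Subtype.val_injective.comp e.symm.injective)

/-- `c₄` of Tate's curve of order seven, over `k[T]`. -/
def sevenA (k : Type*) [Field k] : k[X] := (sevenW k).c₄

/-- `c₆` of Tate's curve of order seven, over `k[T]`. -/
def sevenB (k : Type*) [Field k] : k[X] := (sevenW k).c₆

/-- **Order seven occurs at level two.** -/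
theorem seven_level_two :
    ∃ (E : WeierstrassCurve (RatFunc k)) (_ : E.IsElliptic) (A B : k[X])
      (C₀ : VariableChange (RatFunc k)) (P : E.toAffine.Point),
      C₀ • E = shortEq A B ∧ Minimal A B 2 ∧ addOrderOf P = 7 ∧ NotConst E := by
  obtain ⟨E, hEe, P, hP, -, hc, hgen⟩ : ∃ (E : WeierstrassCurve (RatFunc k)) (_ : E.IsElliptic)
      (P : E.toAffine.Point), addOrderOf P = 7 ∧ (∀ c : k, E.j ≠ algebraMap k (RatFunc k) c) ∧
        NotConst E ∧ E = FA.NeronSpecialisation.genW (sevenW k) := exists_order_seven_genW k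
  have hA : sevenA k = X ^ 8 - C 12 * X ^ 7 + C 42 * X ^ 6 - C 56 * X ^ 5 + C 35 * X ^ 4
      - C 14 * X ^ 2 + C 4 * X + 1 := by
    simp only [sevenA, sevenW, WeierstrassCurve.c₄, b₂, b₄, map_ofNat]; ring
  have hBdeg : (sevenB k).natDegree ≤ 12 := by
    simp only [sevenB, sevenW, WeierstrassCurve.c₆, b₂, b₄, b₆]
    compute_degree
  have hdegA : (sevenA k).natDegree = 8 := by rw [hA]; compute_degree!
  refine ⟨E, hEe, sevenA k, sevenB k,
    ⟨Units.mk0 (1 / 6 : RatFunc k) (by norm_num), -E.b₂ / 12, -E.a₁ / 2,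
      E.a₁ * E.b₂ / 24 - E.a₃ / 2⟩, P, ?_, ⟨by omega, by omega, by omega, fun t ht => ?_⟩, hP, hc⟩
  · subst hgen
    set W := FA.NeronSpecialisation.genW (sevenW k)
    have e4 : algebraMap k[X] (RatFunc k) (sevenA k) = W.c₄ := (WeierstrassCurve.map_c₄ _ _).symm
    have e6 : algebraMap k[X] (RatFunc k) (sevenB k) = W.c₆ := (WeierstrassCurve.map_c₆ _ _).symm
    rw [shortEq, e4, e6]
    ext <;> simp only [variableChange_a₁, variableChange_a₂, variableChange_a₃, variableChange_a₄,
      variableChange_a₆, Units.val_inv_eq_inv_val, Units.val_mk0,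
      WeierstrassCurve.c₄, WeierstrassCurve.c₆, WeierstrassCurve.b₂, WeierstrassCurve.b₄,
      WeierstrassCurve.b₆]
    all_goals field_simp
    all_goals ring
  · have hA0 : (sevenA k).eval t = 0 := eval_eq_zero_of_dvd_of_eval_eq_zero
      ((dvd_pow_self _ (by norm_num)).trans ht.1) (by simp)
    have hB0 : (sevenB k).eval t = 0 := eval_eq_zero_of_dvd_of_eval_eq_zero
      ((dvd_pow_self _ (by norm_num)).trans ht.2) (by simp)
    have hD : sevenA k ^ 3 - sevenB k ^ 2 =
        C 1728 * (X ^ 7 * (X - 1) ^ 7 * (X ^ 3 - C 8 * X ^ 2 + C 5 * X + 1)) := by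
      simp only [sevenA, sevenB, sevenW, WeierstrassCurve.c₄, WeierstrassCurve.c₆, b₂, b₄, b₆,
        map_ofNat]
      ring
    have h0 := congrArg (eval t) hD
    rw [eval_sub, eval_pow, eval_pow, hA0, hB0] at h0
    simp only [eval_mul, eval_pow, eval_sub, eval_add, eval_X, eval_C, eval_one, ne_eq,
      OfNat.ofNat_ne_zero, not_false_eq_true, zero_pow, sub_zero] at h0
    rw [hA] at hA0
    simp only [eval_sub, eval_add, eval_mul, eval_pow, eval_X, eval_C, eval_one] at hA0
    rcases mul_eq_zero.1 h0.symm with h | h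
    · norm_num at h
    rcases mul_eq_zero.1 h with h | h
    rcases mul_eq_zero.1 h with h | h
    · rw [eq_zero_of_pow_eq_zero h] at hA0; norm_num at hA0
    · rw [sub_eq_zero.1 (eq_zero_of_pow_eq_zero h)] at hA0; norm_num at hA0
    · refine absurd (show (208947025 : k) = 0 by
        linear_combination (7291824750 + 12813996125 * t - 1893315900 * t ^ 2) * hA0 +
          (-7082877725 - 6566906500 * t + 28894388600 * t ^ 2 - 2955107925 * t ^ 3
            - 29222733925 * t ^ 4 + 53430739250 * t ^ 5 - 20387259725 * t ^ 6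
            + 1893315900 * t ^ 7) * h) (by norm_num)

end

end FA.CoxParry
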