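import Fermat.Agent.CoxParry.Certificates

/-!
# Certificates for the lowest level of each group
-/

set_option autoImplicit false

namespace FA.CoxParry

/-- A certificate that the level is at least `n`. -/
def LevelCert (a b n L : ℕ) (w : List (ℕ × ℕ × ℕ)) : Prop :=
  CertLocal a b L w ∧
    (n - 1) * (10 * L) <
      2 * L + (n - 1) * (w.map fun t => t.2.2 * if a ∣ 2 * t.1 ∧ b ∣ 2 * t.2.1 then 4 else 3).sum

theorem levelCert_1_7 : LevelCert 1 7 2 1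
    [(0, 1, 1), (0, 2, 1), (0, 3, 1)] := by
  unfold LevelCert CertLocal dist; decide +kernel

theorem levelCert_1_8 : LevelCert 1 8 2 4
    [(0, 1, 2), (0, 2, 4), (0, 3, 2), (0, 4, 3)] := by
  unfold LevelCert CertLocal dist; decide +kernel

theorem levelCert_1_9 : LevelCert 1 9 3 9
    [(0, 1, 6), (0, 2, 6), (0, 3, 10), (0, 4, 6)] := by
  unfold LevelCert CertLocal dist; decide +kernel

theorem levelCert_1_10 : LevelCert 1 10 3 3
    [(0, 1, 1), (0, 2, 3), (0, 3, 1), (0, 4, 3), (0, 5, 1)] := by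
  unfold LevelCert CertLocal dist; decide +kernel

theorem levelCert_1_12 : LevelCert 1 12 4 4
    [(0, 1, 1), (0, 2, 2), (0, 3, 2), (0, 4, 4), (0, 5, 1), (0, 6, 2)] := by
  unfold LevelCert CertLocal dist; decide +kernel

theorem levelCert_2_6 : LevelCert 2 6 2 4
    [(0, 1, 1), (0, 2, 5), (0, 3, 1), (1, 0, 1), (1, 1, 1), (1, 2, 1), (1, 3, 1)] := by
  unfold LevelCert CertLocal dist; decide +kernel

theorem levelCert_2_8 : LevelCert 2 8 4 8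
    [(0, 1, 2), (0, 2, 6), (0, 3, 2), (0, 4, 5), (1, 0, 1), (1, 1, 2), (1, 2, 2),
    (1, 3, 2), (1, 4, 1)] := by
  unfold LevelCert CertLocal dist; decide +kernel

theorem levelCert_3_6 : LevelCert 3 6 3 6
    [(0, 1, 1), (0, 2, 3), (0, 3, 2), (1, 0, 3), (1, 1, 1), (1, 2, 3), (1, 3, 1),
    (1, 4, 3), (1, 5, 1)] := by
  unfold LevelCert CertLocal dist; decide +kernel

theorem levelCert_4_4 : LevelCert 4 4 2 8
    [(0, 1, 2), (0, 2, 3), (1, 0, 2), (1, 1, 2), (1, 2, 2), (1, 3, 2), (2, 0, 3),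
    (2, 1, 2), (2, 2, 3)] := by
  unfold LevelCert CertLocal dist; decide +kernel

theorem levelCert_5_5 : LevelCert 5 5 5 15
    [(0, 1, 4), (0, 2, 4), (1, 0, 4), (1, 1, 4), (1, 2, 4), (1, 3, 4), (1, 4, 4),
    (2, 0, 4), (2, 1, 4), (2, 2, 4), (2, 3, 4), (2, 4, 4)] := by
  unfold LevelCert CertLocal dist; decide +kernel

/-- The groups with a lower bound on the level. -/
def levelList : List (ℕ × ℕ × ℕ) :=
  [(1, 7, 2), (1, 8, 2), (1, 9, 3), (1, 10, 3), (1, 12, 4),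
    (2, 6, 2), (2, 8, 4), (3, 6, 3), (4, 4, 2), (5, 5, 5)]

theorem exists_levelCert {a b n : ℕ} (h : (a, b, n) ∈ levelList) :
    ∃ L w, LevelCert a b n L w := by
  simp only [levelList, List.mem_cons, Prod.mk.injEq, List.not_mem_nil, or_false] at h
  rcases h with ⟨rfl, rfl, rfl⟩ | ⟨rfl, rfl, rfl⟩ | ⟨rfl, rfl, rfl⟩ | ⟨rfl, rfl, rfl⟩ | ⟨rfl, rfl, rfl⟩ | ⟨rfl, rfl, rfl⟩ | ⟨rfl, rfl, rfl⟩ | ⟨rfl, rfl, rfl⟩ | ⟨rfl, rfl, rfl⟩ | ⟨rfl, rfl, rfl⟩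
  exacts [⟨_, _, levelCert_1_7⟩,
    ⟨_, _, levelCert_1_8⟩,
    ⟨_, _, levelCert_1_9⟩,
    ⟨_, _, levelCert_1_10⟩,
    ⟨_, _, levelCert_1_12⟩,
    ⟨_, _, levelCert_2_6⟩,
    ⟨_, _, levelCert_2_8⟩,
    ⟨_, _, levelCert_3_6⟩,
    ⟨_, _, levelCert_4_4⟩,
    ⟨_, _, levelCert_5_5⟩]

end FA.CoxParry
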