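import Fermat.Agent.Local.Node
import Mathlib.FieldTheory.IsAlgClosed.Basic

/-!
# The component of a point at a node

For a nodal normal form with branch slope `s` and two-torsion point `T` every point is the translate
by a multiple of `T` of a point of `E0`, with value `1`, or of a point of the branch `s`, with the
value of its abscissa; multiplying by the same power of `v a₄` gives a value which is multiplicative
on points up to powers of `v a₄ ^ 2`.
-/

set_option autoImplicit false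
set_option linter.unusedSectionVars false

noncomputable section

open WeierstrassCurve FA.Local
open scoped Classical

namespace FA.CoxParry

variable {L Γ : Type*} [Field L] [LinearOrderedCommGroupWithZero Γ] (v : Valuation L Γ)
  (W : Affine L)

/-- In `E0` with value one, or on the branch `s` with the value of the abscissa. -/
def Up (s : L) (Q : W.Point) (γ : Γ) : Prop := (E0 v W Q ∧ γ = 1) ∨ Br v W Q γ s

variable {v W} [DecidableEq L]

/-- The value of the component. -/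
def Cl (hN : Node v W) (s : L) (Q : W.Point) (γ : Γ) : Prop :=
  ∃ (Q₀ : W.Point) (γ₀ : Γ) (n : ℕ), Up v W s Q₀ γ₀ ∧ Q = Q₀ + n • hN.T ∧ γ = γ₀ * v W.a₄ ^ n

variable (hN : Node v W) {s : L}
include hN

theorem add_T_add_T (P : W.Point) : P + hN.T + hN.T = P := by
  rw [add_assoc, hN.T_add_T, add_zero]

/-- Every point is in `E0`, in the middle, or on a branch. -/
theorem trichotomy (Q : W.Point) :
    E0 v W Q ∨ E0 v W (Q + hN.T) ∨ ∃ g t, Br v W Q g t := by
  rcases Q with _ | ⟨x, y, h⟩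
  · exact Or.inl trivial
  by_cases h1 : 1 ≤ v x
  · exact Or.inl h1
  by_cases h2 : v x ≤ v W.a₄
  · exact Or.inr (Or.inl (hN.e0_add_T_of_le h h2))
  · exact Or.inr (Or.inr ⟨_, _, hN.br_self h (not_le.mp h2) (not_le.mp h1)⟩)

theorem br_slope {Q : W.Point} {g : Γ} {t : L} (hs : v (qb W s) < 1) (hQ : Br v W Q g t) :
    Br v W Q g s ∨ Br v W Q g (-W.a₁ - s) := by
  obtain ⟨x, y, h, rfl⟩ := hQ.exists_eq
  have ht : v (qb W t) < 1 := ((br_some h).1 hQ).2.2.2.2
  rcases Node.root_cases hs ht with h' | h'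
  · exact Or.inl (Node.br_congr hQ hs h')
  · exact Or.inr (Node.br_congr hQ (by rw [Node.qb_other]; exact hs) h')

/-- Adding a point of `E0` does not change the branch. -/
theorem br_add_e0 {P R : W.Point} {g : Γ} (hs : v (qb W s) < 1) (hP : Br v W P g s)
    (hR : E0 v W R) : Br v W (P + R) g s := by
  set S := P + R with hS
  have hPS : E0 v W (P - S) := by
    rw [hS, sub_add_cancel_left]; exact e0_neg.mpr hR
  have hne : ¬E0 v W S := fun h => hP.not_e0 (by
    have := hN.e0_add hPS h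
    rwa [sub_add_cancel] at this)
  have hnm : ¬E0 v W (S + hN.T) := fun h => (hN.br_add_T hP).not_e0 (by
    have := hN.e0_add hPS h
    rwa [← add_assoc, sub_add_cancel] at this)
  rcases trichotomy hN S with h | h | ⟨g', t, hbr⟩
  · exact absurd h hne
  · exact absurd h hnm
  rcases br_slope hN hs hbr with hb | hb
  · rcases lt_trichotomy g g' with hlt | rfl | hlt
    · have := ((hN.add_opp hP (hN.br_neg hb)).2 hlt).not_e0
      rw [← sub_eq_add_neg] at this
      exact absurd hPS this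
    · exact hb
    · have := ((hN.add_opp hb (hN.br_neg hP)).2 hlt).not_e0
      rw [← sub_eq_add_neg, ← neg_sub, e0_neg] at this
      exact absurd hPS this
  · exfalso
    have hb' : Br v W (-S) g' s := by
      have := hN.br_neg hb
      rwa [show -W.a₁ - (-W.a₁ - s) = s by ring] at this
    have hPT := hN.br_add_T hP
    have hg : 0 < g := by
      obtain ⟨x, y, h, rfl⟩ := hP.exists_eq
      exact lt_of_le_of_lt zero_le ((br_some h).1 hP).2.1
    rcases lt_trichotomy (v W.a₄) (g * g') with hlt | heq | hlt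
    · have := (hN.br_add_same hP hb' hlt).not_e0
      rw [← sub_eq_add_neg] at this
      exact this hPS
    · have hE := (hN.add_opp hb' hPT).1 (by rw [eq_div_iff hg.ne', heq, mul_comm])
      have hT := hN.e0_sub hE hPS
      rw [show -S + (P + hN.T) - (P - S) = hN.T by abel] at hT
      exact hN.T_not_e0 hT
    · have := ((hN.add_opp hb' hPT).2 (by
        rw [lt_div_iff₀ hg, mul_comm]; exact hlt)).not_e0
      have hE : ¬E0 v W (-S + (P + hN.T)) := this
      have h2 : Br v W (-S + (P + hN.T) + hN.T) _ _ := hN.br_add_T ((hN.add_opp hb' hPT).2 (by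
        rw [lt_div_iff₀ hg, mul_comm]; exact hlt))
      rw [show -S + (P + hN.T) + hN.T = P - S + (hN.T + hN.T) by abel, hN.T_add_T, add_zero] at h2
      exact h2.not_e0 hPS

theorem add_up {P Q : W.Point} {a b : Γ} (hs : v (qb W s) < 1) (hP : Up v W s P a)
    (hQ : Up v W s Q b) :
    ∃ (R : W.Point) (c : Γ) (n : ℕ), Up v W s R c ∧ P + Q = R + n • hN.T ∧
      a * b = c * v W.a₄ ^ n := by
  rcases hP with ⟨hP, rfl⟩ | hP <;> rcases hQ with ⟨hQ, rfl⟩ | hQ
  · exact ⟨_, 1, 0, Or.inl ⟨hN.e0_add hP hQ, rfl⟩, by simp, by simp⟩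
  · exact ⟨_, b, 0, Or.inr (add_comm Q P ▸ br_add_e0 hN hs hQ hP), by simp, by simp⟩
  · exact ⟨_, a, 0, Or.inr (br_add_e0 hN hs hP hQ), by simp, by simp⟩
  · have hb : 0 < b := by
      obtain ⟨x, y, h, rfl⟩ := hQ.exists_eq
      exact lt_of_le_of_lt zero_le ((br_some h).1 hQ).2.1
    have hb₀ : v W.a₄ ≠ 0 := v.ne_zero_iff.mpr hN.hb₀
    have hQT := hN.br_add_T hQ
    rcases lt_trichotomy (v W.a₄) (a * b) with hlt | heq | hlt
    · exact ⟨_, _, 0, Or.inr (hN.br_add_same hP hQ hlt), by simp, by simp⟩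
    · refine ⟨P + (Q + hN.T), 1, 1, Or.inl ⟨(hN.add_opp hP hQT).1 ?_, rfl⟩, ?_, ?_⟩
      · rw [eq_div_iff hb.ne', heq]
      · rw [one_nsmul, ← add_assoc, add_T_add_T hN]
      · rw [pow_one, one_mul, heq]
    · refine ⟨P + (Q + hN.T), a / (v W.a₄ / b), 1, Or.inr ((hN.add_opp hP hQT).2 ?_), ?_, ?_⟩
      · rwa [lt_div_iff₀ hb]
      · rw [one_nsmul, ← add_assoc, add_T_add_T hN]
      · field_simp

theorem Cl.zero : Cl hN s 0 1 := ⟨0, 1, 0, Or.inl ⟨trivial, rfl⟩, by simp, by simp⟩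

/-- **The value is multiplicative.** -/
theorem Cl.add {P Q : W.Point} {a b : Γ} (hs : v (qb W s) < 1) (hP : Cl hN s P a)
    (hQ : Cl hN s Q b) : Cl hN s (P + Q) (a * b) := by
  obtain ⟨P₀, a₀, m, hP₀, rfl, rfl⟩ := hP
  obtain ⟨Q₀, b₀, n, hQ₀, rfl, rfl⟩ := hQ
  obtain ⟨R, c, i, hR, hsum, hc⟩ := add_up hN hs hP₀ hQ₀
  refine ⟨R, c, i + m + n, hR, ?_, ?_⟩
  · rw [add_add_add_comm, hsum, add_nsmul, add_nsmul]; abel
  · rw [mul_mul_mul_comm, hc, pow_add, pow_add]; simp [mul_assoc]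

theorem Cl.nsmul {P : W.Point} {a : Γ} (hs : v (qb W s) < 1) (hP : Cl hN s P a) (n : ℕ) :
    Cl hN s (n • P) (a ^ n) := by
  induction n with
  | zero => rw [zero_nsmul, pow_zero]; exact Cl.zero hN
  | succ n ih => rw [succ_nsmul, pow_succ]; exact Cl.add hN hs ih hP

/-- **Reading off the value.** -/
theorem Cl.cases {Q : W.Point} {γ : Γ} (hQ : Cl hN s Q γ) :
    ∃ i : ℕ, (E0 v W Q ∧ γ = (v W.a₄ ^ 2) ^ i) ∨
      (E0 v W (Q + hN.T) ∧ γ = v W.a₄ * (v W.a₄ ^ 2) ^ i) ∨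
      ∃ g, (Br v W Q g s ∨ Br v W Q g (-W.a₁ - s)) ∧
        (γ = g * (v W.a₄ ^ 2) ^ i ∨ γ * g = (v W.a₄ ^ 2) ^ i) := by
  obtain ⟨Q₀, γ₀, n, h₀, rfl, rfl⟩ := hQ
  obtain ⟨i, rfl | rfl⟩ := n.even_or_odd'
  · have e : (2 * i) • hN.T = 0 := by rw [mul_comm, mul_nsmul', hN.two_nsmul_T, nsmul_zero]
    rw [e, add_zero, pow_mul]
    rcases h₀ with ⟨hE, rfl⟩ | hbr
    · exact ⟨i, Or.inl ⟨hE, one_mul _⟩⟩
    · exact ⟨i, Or.inr (Or.inr ⟨γ₀, Or.inl hbr, Or.inl rfl⟩)⟩
  · have e : (2 * i + 1) • hN.T = hN.T := by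
      rw [add_nsmul, mul_comm, mul_nsmul', hN.two_nsmul_T, nsmul_zero, zero_add, one_nsmul]
    rw [e, pow_succ, pow_mul]
    rcases h₀ with ⟨hE, rfl⟩ | hbr
    · exact ⟨i, Or.inr (Or.inl ⟨by rwa [add_T_add_T hN], by rw [one_mul, mul_comm]⟩)⟩
    · have hγ : γ₀ ≠ 0 := by
        obtain ⟨x, y, h, rfl⟩ := hbr.exists_eq
        exact (lt_of_le_of_lt zero_le ((br_some h).1 hbr).2.1).ne'
      refine ⟨i + 1, Or.inr (Or.inr ⟨_, Or.inr (hN.br_add_T hbr), Or.inr ?_⟩)⟩
      field_simp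
      rw [pow_add, pow_one, mul_comm]

/-- Every point has a value. -/
theorem exists_cl (hs : v (qb W s) < 1) (Q : W.Point) :
    (E0 v W Q ∧ Cl hN s Q 1) ∨ (E0 v W (Q + hN.T) ∧ Cl hN s Q (v W.a₄)) ∨
      ∃ g, (Br v W Q g s ∧ Cl hN s Q g) ∨
        (Br v W Q g (-W.a₁ - s) ∧ Cl hN s Q (v W.a₄ ^ 2 / g)) := by
  rcases trichotomy hN Q with h | h | ⟨g, t, hbr⟩
  · exact Or.inl ⟨h, Q, 1, 0, Or.inl ⟨h, rfl⟩, by simp, by simp⟩
  · exact Or.inr (Or.inl ⟨h, Q + hN.T, 1, 1, Or.inl ⟨h, rfl⟩,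
      by rw [one_nsmul, add_T_add_T hN], by simp⟩)
  refine Or.inr (Or.inr ⟨g, ?_⟩)
  rcases br_slope hN hs hbr with hb | hb
  · exact Or.inl ⟨hb, Q, g, 0, Or.inr hb, by simp, by simp⟩
  · have hT := hN.br_add_T hb
    rw [show -W.a₁ - (-W.a₁ - s) = s by ring] at hT
    exact Or.inr ⟨hb, Q + hN.T, _, 1, Or.inr hT, by rw [one_nsmul, add_T_add_T hN], by
      rw [pow_one, sq, div_mul_eq_mul_div]⟩

omit hN in
/-- A branch slope. -/
theorem exists_slope [IsAlgClosed L] : ∃ s : L, v (qb W s) < 1 := by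
  obtain ⟨s, hs⟩ := IsAlgClosed.exists_root (Polynomial.C (1 : L) * Polynomial.X ^ 2
    + Polynomial.C W.a₁ * Polynomial.X + Polynomial.C (-W.a₂))
    (by rw [Polynomial.degree_quadratic one_ne_zero]; exact two_ne_zero)
  simp only [Polynomial.IsRoot.def, Polynomial.eval_add, Polynomial.eval_mul, Polynomial.eval_C,
    Polynomial.eval_pow, Polynomial.eval_X, one_mul] at hs
  refine ⟨s, ?_⟩
  rw [show qb W s = 0 by simp only [qb]; linear_combination hs, map_zero]
  exact zero_lt_one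

end FA.CoxParry
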