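import Fermat.Agent.CoxParry.Node
import Fermat.Agent.LevinTorsion.Local
import Fermat.Agent.LangNeron.PoleOrders

/-!
# Torsion points at a place of residue characteristic zero

For torsion points of any order we follow the value of `fO`: the ordinate, or the derivative in `x`
at a point of order two. It is one at good places; at a node it is the value of the component. An
additive place allows no point with `3 Q ≠ 0` and `4 Q ≠ 0`.
-/

set_option autoImplicit false
set_option linter.unusedSectionVars false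
set_option linter.style.haveILetI false

noncomputable section

open WeierstrassCurve FA.Local FA.LevinTorsion
open scoped Classical

namespace FA.CoxParry

variable {L Γ : Type*} [Field L] [LinearOrderedCommGroupWithZero Γ] {v : Valuation L Γ}

/-- The ordinate, or `fx` at a point of order two (for `a₁ = a₃ = 0`). -/
def fO (W : Affine L) (x y : L) : L := if y = 0 then fx W x y else y

variable (hv : ∀ n : ℤ, n ≠ 0 → v (n : L) = 1) {W : WeierstrassCurve L}
  [W.IsElliptic] (hI : IntCoeff v W.toAffine)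
include hv hI

/-- The kernel of reduction has no torsion. -/
theorem eq_zero_of_e1 {P : W.toAffine.Point} (hP : E1 v W.toAffine P) {n : ℕ} (hn : n ≠ 0)
    (hnP : n • P = 0) : P = 0 := by
  rcases P with _ | ⟨x, y, h⟩
  · rfl
  exfalso
  obtain ⟨x', y', h', e, -⟩ := FA.LangNeron.val_x_zsmul hI (n := (n : ℤ))
    (hv n (by exact_mod_cast hn)) h ((e1_some h).1 hP)
  rw [natCast_zsmul, hnP] at e
  exact Affine.Point.some_ne_zero h' e.symm

variable {x y : L} {h : W.toAffine.Nonsingular x y}
  (hT : IsOfFinAddOrder (Affine.Point.some x y h))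
include hT

theorem val_x_le_one : v x ≤ 1 := by
  by_contra hx
  obtain ⟨n, hn, hnP⟩ := hT.exists_nsmul_eq_zero
  exact Affine.Point.some_ne_zero h
    (eq_zero_of_e1 hv hI (P := .some x y h) (not_le.mp hx) hn.ne' hnP)

/-- At a nonsingular reduction `fO` is a unit. -/
theorem val_fO_of_nsRed (h₁ : W.a₁ = 0) (h₃ : W.a₃ = 0) (hns : NsRed v W.toAffine x y) :
    v (fO W.toAffine x y) = 1 := by
  have hy2 : fy W.toAffine x y = 2 * y := by
    show 2 * y + W.a₁ * x + W.a₃ = 2 * y
    rw [h₁, h₃]; ring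
  by_cases hy : y = 0
  · rw [fO, if_pos hy]
    refine hns.resolve_left ?_
    rw [hy2, hy, mul_zero, map_zero]; exact zero_ne_one
  rw [fO, if_neg hy]
  have hx := val_x_le_one hv hI hT
  refine eq_one_of_not_lt (le_y_of_le_x hI h.1 hx) fun hlt => ?_
  have hneg : W.toAffine.negY x y = -y := by
    show -y - W.a₁ * x - W.a₃ = -y
    rw [h₁, h₃]; ring
  have hE := e1_sub_of_congr hI h ((Affine.nonsingular_neg x y).2 h) hx hns (by simp) (by
    rw [hneg, sub_neg_eq_add, ← two_mul]; exact map_mul_lt_one le_two hlt)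
  rw [← Affine.Point.neg_some h, sub_neg_eq_add] at hE
  obtain ⟨n, hn, hnP⟩ := hT.exists_nsmul_eq_zero
  have h2 := eq_zero_of_e1 hv hI hE hn.ne' (by rw [nsmul_add, hnP, add_zero])
  rw [← eq_neg_iff_add_eq_zero, Affine.Point.neg_some, Affine.Point.some.injEq, hneg] at h2
  refine hy ?_
  have : 2 * y = 0 := by linear_combination h2.2
  exact (mul_eq_zero.mp this).resolve_left (two_ne hv)

omit hT hI [W.IsElliptic] in
theorem two_nsmul_eq_zero_iff {x y : L} (h₁ : W.a₁ = 0) (h₃ : W.a₃ = 0)
    (h : W.toAffine.Nonsingular x y) : 2 • Affine.Point.some x y h = 0 ↔ y = 0 := by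
  have hneg : W.toAffine.negY x y = -y := by
    show -y - W.a₁ * x - W.a₃ = -y
    rw [h₁, h₃]; ring
  rw [two_nsmul, ← eq_neg_iff_add_eq_zero, Affine.Point.neg_some, Affine.Point.some.injEq, hneg]
  constructor
  · rintro ⟨-, e⟩
    have : 2 * y = 0 := by linear_combination e
    exact (mul_eq_zero.mp this).resolve_left (two_ne hv)
  · rintro rfl; exact ⟨rfl, by simp⟩

omit hI hT [W.IsElliptic]

/-- `fO` of the short equation at a good place. -/
theorem val_fO_of_good {a b : L} [(shortL a b).IsElliptic] (ha : v a ≤ 1) (hb : v b ≤ 1)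
    (hD : v (a ^ 3 - b ^ 2) = 1) {x y : L} {h : (shortL a b).toAffine.Nonsingular x y}
    (hT : IsOfFinAddOrder (Affine.Point.some x y h)) :
    v (fO (shortL a b).toAffine x y) = 1 :=
  have hI := intCoeff_shortL hv ha hb
  val_fO_of_nsRed hv hI hT rfl rfl (nsRed_of_good hv ha hb hD h.1 (val_x_le_one hv hI hT))

/-- At a good place with `a` small a point with small abscissa is a flex. -/
theorem three_nsmul_of_flex {a b : L} [(shortL a b).IsElliptic] (ha : v a < 1) (hb : v b ≤ 1)
    (hD : v (a ^ 3 - b ^ 2) = 1) {x y : L} {h : (shortL a b).toAffine.Nonsingular x y}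
    (hT : IsOfFinAddOrder (Affine.Point.some x y h)) (hy0 : y ≠ 0) (hx : v x < 1) :
    3 • Affine.Point.some x y h = 0 := by
  have hI := intCoeff_shortL hv ha.le hb
  have hy : v y = 1 := by
    have := val_fO_of_good hv ha.le hb hD hT
    rwa [fO, if_neg hy0] at this
  have hne : y ≠ (shortL a b).toAffine.negY x y := fun e => by
    have h0 : 2 * y = 0 := by
      simp only [Affine.negY, shortL, zero_mul, sub_zero] at e
      linear_combination e
    exact hy0 ((mul_eq_zero.mp h0).resolve_left (two_ne hv))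
  set l := (shortL a b).toAffine.slope x x y y with hl
  have hl1 : v l < 1 := by
    rw [hl, Affine.slope_of_Y_ne rfl hne]
    refine map_div_lt_one ?_
    simp only [Affine.negY, shortL, mul_zero, zero_mul, sub_zero, add_zero, sub_neg_eq_add]
    rw [← two_mul, map_mul v 2 y, val_ofNat hv 2, hy, one_mul]
    refine v.map_add_lt (map_mul_lt_one le_three ?_) ?_
    · rw [sq]; exact map_mul_lt_one hx.le hx
    · rw [neg_mul, v.map_neg]; exact map_mul_lt_one (natCast_le_one 27) ha
  have hadd := Affine.Point.add_self_of_Y_ne (h₁ := h) hne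
  set x₂ := (shortL a b).toAffine.addX x x l with hx₂
  have hx₂1 : v x₂ < 1 := by
    simp only [hx₂, Affine.addX, shortL, zero_mul, sub_zero, add_zero]
    refine v.map_sub_lt (v.map_sub_lt ?_ hx) hx
    rw [sq]; exact map_mul_lt_one hl1.le hl1
  have h2ns : (shortL a b).toAffine.Nonsingular x₂ ((shortL a b).toAffine.addY x x y l) :=
    Affine.nonsingular_add h h fun hh => hne hh.2
  have hE := e1_sub_of_congr hI h2ns ((Affine.nonsingular_neg x y).2 h) hx₂1.le
    (nsRed_of_good hv ha.le hb hD h2ns.1 hx₂1.le) (v.map_sub_lt hx₂1 hx) (by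
      rw [show (shortL a b).toAffine.addY x x y l - (shortL a b).toAffine.negY x y =
          -(l * (x₂ - x)) by
        simp only [hx₂, Affine.addY, Affine.negAddY, Affine.negY, shortL]; ring, v.map_neg]
      exact map_mul_lt_one' hl1 (v.map_sub_le hx₂1.le hx.le))
  have e3 : Affine.Point.some x₂ ((shortL a b).toAffine.addY x x y l) h2ns -
      Affine.Point.some x ((shortL a b).toAffine.negY x y) ((Affine.nonsingular_neg x y).2 h) =
      3 • Affine.Point.some x y h := by
    rw [← Affine.Point.neg_some h, sub_neg_eq_add, succ_nsmul, two_nsmul, hadd]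
  rw [e3] at hE
  obtain ⟨n, hn, hnP⟩ := hT.exists_nsmul_eq_zero
  exact eq_zero_of_e1 hv hI hE hn.ne' (by rw [← mul_nsmul, mul_comm, mul_nsmul, hnP, nsmul_zero])

section AtNode

variable {W : WeierstrassCurve L} [W.IsElliptic] (hN : Node v W.toAffine) (h₁ : W.a₁ = 0)
include hN h₁

theorem val_a₂ : v W.a₂ = 1 := by
  have h := hN.hdisc
  rw [show W.toAffine.a₁ = 0 from h₁, zero_pow two_ne_zero, zero_add, map_mul, val_ofNat hv 4,
    one_mul] at h
  exact h

/-- In `E0`. -/
theorem fO_of_e0 {x y : L} {h : W.toAffine.Nonsingular x y}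
    (hT : IsOfFinAddOrder (Affine.Point.some x y h))
    (hE : E0 v W.toAffine (Affine.Point.some x y h)) :
    v x = 1 ∧ v (fO W.toAffine x y) = 1 := by
  have hx : v x = 1 := le_antisymm (val_x_le_one hv hN.hI hT) ((e0_some h).1 hE)
  exact ⟨hx, val_fO_of_nsRed hv hN.hI hT h₁ hN.h₃ (hN.nsRed h.1 hx)⟩

/-- On a branch. -/
theorem fO_of_br {x y t : L} {g : Γ} {h : W.toAffine.Nonsingular x y}
    (hb : Br v W.toAffine (Affine.Point.some x y h) g t) :
    y ≠ 0 ∧ v y = g ∧ v (fx W.toAffine x y) = g := by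
  rw [br_some] at hb
  obtain ⟨hg, hbg, hg1, hs, hq⟩ := hb
  have hx0 : x ≠ 0 := v.pos_iff.mp (hg ▸ lt_of_le_of_lt zero_le hbg)
  have ht : v t = 1 := by
    have := hN.unit_root hq
    rwa [show W.toAffine.a₁ = 0 from h₁, add_zero, map_mul, val_ofNat hv 2, one_mul] at this
  have hvy : v y = g := by
    have h' := eq_one_of_sub_lt ht hs
    rwa [map_div₀, div_eq_one_iff_eq (v.ne_zero_iff.2 hx0), hg] at h'
  refine ⟨fun e => ?_, hvy, ?_⟩
  · rw [e, map_zero] at hvy
    exact (lt_of_le_of_lt zero_le hbg).ne hvy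
  have h2 : v (2 * W.toAffine.a₂ * x) = g := by
    rw [map_mul, map_mul, val_ofNat hv 2, show v W.toAffine.a₂ = 1 from val_a₂ hv hN h₁, one_mul,
      one_mul, hg]
  show v (3 * x ^ 2 + 2 * W.toAffine.a₂ * x + W.toAffine.a₄ - W.toAffine.a₁ * y) = g
  rw [show W.toAffine.a₁ = 0 from h₁, zero_mul, sub_zero,
    v.map_add_eq_of_lt_left, v.map_add_eq_of_lt_right, h2]
  · rw [h2, map_mul, map_pow, val_ofNat hv 3, one_mul, sq, hg]
    exact mul_lt_of_lt_one_left (lt_of_le_of_lt zero_le hbg) hg1
  · rw [v.map_add_eq_of_lt_right, h2]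
    · exact hbg
    rw [h2, map_mul, map_pow, val_ofNat hv 3, one_mul, sq, hg]
    exact mul_lt_of_lt_one_left (lt_of_le_of_lt zero_le hbg) hg1

omit h₁ in
theorem isOfFinAddOrder_add_T {Q : W.toAffine.Point} (hT : IsOfFinAddOrder Q) :
    IsOfFinAddOrder (Q + hN.T) :=
  (AddCommute.all Q hN.T).isOfFinAddOrder_add hT
    (isOfFinAddOrder_iff_nsmul_eq_zero.2 ⟨2, two_pos, hN.two_nsmul_T⟩)

/-- In the middle. -/
theorem fO_of_middle {x y : L} {h : W.toAffine.Nonsingular x y}
    (hT : IsOfFinAddOrder (Affine.Point.some x y h))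
    (hE : E0 v W.toAffine (Affine.Point.some x y h + hN.T)) :
    v (fO W.toAffine x y) = v W.a₄ := by
  have e : Affine.Point.some x y h = Affine.Point.some x y h + hN.T + hN.T :=
    (add_T_add_T hN _).symm
  have hT' := isOfFinAddOrder_add_T hv hN hT
  rcases hR : Affine.Point.some x y h + hN.T with _ | ⟨x', y', h'⟩
  · rw [hR, ← Affine.Point.zero_def, zero_add, Node.T, Affine.Point.some.injEq] at e
    rw [fO, if_pos e.2, e.1, e.2]
    show v (3 * 0 ^ 2 + 2 * W.toAffine.a₂ * 0 + W.toAffine.a₄ - W.toAffine.a₁ * 0) = _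
    simp
  rw [hR] at hT' hE e
  obtain ⟨hx1, hf⟩ := fO_of_e0 hv hN h₁ hT' hE
  have hx0 : x' ≠ 0 := fun e0 => by rw [e0, map_zero] at hx1; exact zero_ne_one hx1
  have hy1 : y' ≠ 0 → v y' = 1 := fun hy => by rwa [fO, if_neg hy] at hf
  have heq := (Affine.equation_iff x' y').mp h'.1
  rw [hN.h₃, hN.h₆, show W.toAffine.a₁ = 0 from h₁] at heq
  rw [Node.T, Affine.Point.add_of_X_ne hx0, Affine.Point.some.injEq, Affine.slope_of_X_ne hx0]
    at e
  simp only [sub_zero, Affine.addX, Affine.addY, Affine.negAddY, Affine.negY, hN.h₃,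
    show W.toAffine.a₁ = 0 from h₁, zero_mul, add_zero] at e
  have hx : x = W.toAffine.a₄ / x' := by
    rw [e.1]; field_simp; linear_combination heq
  have hy : y = -(W.toAffine.a₄ * y') / x' ^ 2 := by
    rw [e.2]; field_simp; linear_combination -y' * heq
  by_cases hy0 : y' = 0
  · have hy' : y = 0 := by rw [hy, hy0]; simp
    rw [fO, if_pos hy']
    subst hy0
    rw [hy']
    show v (3 * x ^ 2 + 2 * W.toAffine.a₂ * x + W.toAffine.a₄ - W.toAffine.a₁ * 0) = v W.a₄
    have h0 : x' ^ 2 + W.toAffine.a₂ * x' + W.toAffine.a₄ = 0 :=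
      (mul_eq_zero.mp (by linear_combination -heq :
        x' * (x' ^ 2 + W.toAffine.a₂ * x' + W.toAffine.a₄) = 0)).resolve_left hx0
    have hu : v (W.toAffine.a₄ - x' ^ 2) = 1 := by
      rw [v.map_sub_eq_of_lt_right] <;> rw [map_pow, hx1, one_pow]
      exact hN.hb
    rw [show 3 * x ^ 2 + 2 * W.toAffine.a₂ * x + W.toAffine.a₄ - W.toAffine.a₁ * 0 =
        W.toAffine.a₄ * (W.toAffine.a₄ - x' ^ 2) / x' ^ 2 by
      rw [hx]; field_simp; linear_combination 2 * W.toAffine.a₄ * h0,
      map_div₀, map_mul, hu, map_pow, hx1, one_pow, mul_one, div_one]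
  · have hy' : y ≠ 0 := by
      rw [hy]; exact div_ne_zero (neg_ne_zero.2 (mul_ne_zero hN.hb₀ hy0)) (pow_ne_zero 2 hx0)
    rw [fO, if_neg hy', hy, map_div₀, v.map_neg, map_mul, hy1 hy0, map_pow, hx1, one_pow,
      mul_one, div_one]

end AtNode

end FA.CoxParry
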